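import Fermat.Agent.WaringAsymptotic.Minor
import Fermat.Agent.WaringAsymptotic.Major

/-!
# Powers off the arcs of logarithmic size

If `α` is on no arc `q ≤ (log N) ^ (2 k)`, `|α - r / q| ≤ (log N) ^ (8 k + 2) / N`, the sum of
`e (α x ^ k)` over `x ^ k ≤ N` is `O (N ^ (1/k) / log N)`: Weyl's inequality off the arcs of size
`P ^ (1/10)`, the bounds for the model on them.
-/

set_option autoImplicit false

noncomputable section

namespace FA.PrimePlusPower

open Finset FA.ThreePrimes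
open scoped Real

/-- `N ^ (1/k)`. -/
def powerScale (k N : ℕ) : ℝ := (N : ℝ) ^ (1 / (k : ℝ))

theorem powerScale_spec {k N : ℕ} (hk : 2 ≤ k) (hN : 1 ≤ N) :
    1 ≤ powerScale k N ∧ powerScale k N ^ 2 ≤ N ∧ powerScale k N ^ k = N ∧
      (WaringAsymptotic.rootFloor k N : ℝ) ≤ powerScale k N ∧
      Real.log N = k * Real.log (powerScale k N) := by
  have hN1 : (1 : ℝ) ≤ N := by exact_mod_cast hN
  have hN0 : (0 : ℝ) < N := by linarith
  have hk0 : (0 : ℝ) < k := Nat.cast_pos.2 (by omega)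
  have hk2 : (2 : ℝ) ≤ k := by exact_mod_cast hk
  have hpow : powerScale k N ^ k = N := by
    rw [powerScale, ← Real.rpow_natCast, ← Real.rpow_mul hN0.le, one_div_mul_cancel hk0.ne',
      Real.rpow_one]
  have h1 : 1 ≤ powerScale k N := Real.one_le_rpow hN1 (by positivity)
  refine ⟨h1, ?_, hpow, ?_, ?_⟩
  · calc powerScale k N ^ 2 ≤ powerScale k N ^ k := pow_le_pow_right₀ h1 hk
      _ = N := hpow
  · refine le_of_pow_le_pow_left₀ (by omega : k ≠ 0) (by linarith) (hpow.symm ▸ ?_)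
    exact_mod_cast (WaringAsymptotic.rootFloor_spec (show 1 ≤ k by omega) hN).2.1
  · rw [← Real.log_pow, hpow]

/-- Powers of `log N` against `N ^ (1/k)`. -/
theorem exists_log_pow_le_scale {k : ℕ} (hk : 2 ≤ k) (j : ℕ) : ∃ K : ℝ, 0 < K ∧ ∀ N : ℕ, 1 ≤ N →
    Real.log N ^ j ≤ K * powerScale k N := by
  obtain ⟨K, hK, h⟩ := exists_log_pow_le j
  have hk0 : (0 : ℝ) < k := Nat.cast_pos.2 (by omega)
  refine ⟨((k : ℝ) / 2) ^ j * K, by positivity, fun N hN => ?_⟩
  have hN1 : (1 : ℝ) ≤ N := by exact_mod_cast hN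
  obtain ⟨h1, -, -, -, hlog⟩ := powerScale_spec hk hN
  have h2 := h (powerScale k N ^ 2) (one_le_pow₀ h1)
  rw [Real.log_pow, Real.sqrt_sq (by linarith)] at h2
  rw [hlog, mul_assoc ((_ : ℝ) ^ j)]
  calc ((k : ℝ) * Real.log (powerScale k N)) ^ j
      = ((k : ℝ) / 2) ^ j * (((2 : ℕ) : ℝ) * Real.log (powerScale k N)) ^ j := by
        rw [← mul_pow]
        push_cast
        ring_nf
    _ ≤ _ := mul_le_mul_of_nonneg_left h2 (by positivity)

/-- The sum does not change when `α` moves by an integer. -/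
theorem waringSum_add_intCast (k P : ℕ) (α : ℝ) (j : ℤ) :
    WaringAsymptotic.waringSum k P (α + j) = WaringAsymptotic.waringSum k P α := by
  refine sum_congr rfl fun x _ => ?_
  rw [show (α + j) * (x : ℝ) ^ k = α * (x : ℝ) ^ k + ((j * (x : ℤ) ^ k : ℤ) : ℝ) by
    push_cast; ring, eAdd_add_intCast]

/-- **The sup bound.** -/
theorem exists_power_off {k : ℕ} (hk : 2 ≤ k) : ∃ C : ℝ, 0 < C ∧ ∀ N : ℕ, 1 ≤ N →
    1 ≤ Real.log N → ∀ α : ℝ,
      (∀ z ∈ arcCentres ⌊Real.log N ^ (2 * k)⌋₊,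
        Real.log N ^ (8 * k + 2) / N < nearDist (α - centre z)) →
      ‖WaringAsymptotic.waringSum k (WaringAsymptotic.rootFloor k N) α‖ ≤
        C * (powerScale k N / Real.log N) := by
  have hk0 : (0 : ℝ) < k := Nat.cast_pos.2 (by omega)
  have hk2 : (2 : ℝ) ≤ k := by exact_mod_cast hk
  obtain ⟨C₁, hC₁, hsup⟩ := WaringAsymptotic.exists_minor_sup hk
  obtain ⟨C₂, hC₂, hdf⟩ := WaringAsymptotic.exists_densityFactor_le hk
    (e := 1 / (2 * (k : ℝ))) (by positivity)
    (by rw [mul_one_div, div_le_one (by positivity)]; linarith)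
    (by rw [div_le_iff₀ (by positivity)]; linarith)
  obtain ⟨σ, hσ⟩ : ∃ σ, σ = WaringAsymptotic.weylSaving k := ⟨_, rfl⟩
  have hσ0 : 0 < σ := hσ ▸ WaringAsymptotic.weylSaving_pos k
  have hσ1 : σ ≤ 1 / 20 := hσ ▸ WaringAsymptotic.weylSaving_le k
  refine ⟨(C₁ + 72) * (k / σ) + 3 + C₂, by positivity, fun N hN hl1 α hout => ?_⟩
  obtain ⟨hP1, hPN, hNP⟩ := WaringAsymptotic.rootFloor_spec (show 1 ≤ k by omega) hN
  obtain ⟨hS1, -, -, hPS, hlog⟩ := powerScale_spec hk hN
  obtain ⟨S, hS⟩ : ∃ S, S = powerScale k N := ⟨_, rfl⟩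
  obtain ⟨l, hl⟩ : ∃ l, l = Real.log N := ⟨_, rfl⟩
  obtain ⟨P, hP⟩ : ∃ P, P = WaringAsymptotic.rootFloor k N := ⟨_, rfl⟩
  rw [← hP] at hP1 hPN hNP hPS ⊢
  rw [← hS] at hS1 hPS hlog ⊢
  rw [← hl] at hl1 hout hlog ⊢
  have hS0 : 0 < S := by linarith
  have hl0 : 0 < l := by linarith
  have hN0 : (0 : ℝ) < N := Nat.cast_pos.2 hN
  have hP0 : (1 : ℝ) ≤ P := by exact_mod_cast hP1
  obtain ⟨T, hT⟩ : ∃ T : ℝ, T = S / l := ⟨_, rfl⟩
  rw [← hT]
  have hT0 : 0 < T := by rw [hT]; positivity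
  have hsave : S ^ (1 - σ) ≤ k / σ * T := by
    have h1 : l ≤ k / σ * S ^ σ := by
      rw [hlog, div_mul_eq_mul_div, mul_div_assoc]
      exact mul_le_mul_of_nonneg_left (Real.log_le_rpow_div hS0.le hσ0) hk0.le
    rw [hT, mul_div_assoc', le_div_iff₀ hl0]
    calc S ^ (1 - σ) * l ≤ S ^ (1 - σ) * (k / σ * S ^ σ) :=
          mul_le_mul_of_nonneg_left h1 (by positivity)
      _ = k / σ * (S ^ (1 - σ) * S ^ σ) := by ring
      _ = k / σ * S := by rw [← Real.rpow_add hS0, sub_add_cancel, Real.rpow_one]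
  have hkT : 0 ≤ (k : ℝ) / σ * T := by positivity
  have hC₁T : 0 ≤ C₁ * ((k : ℝ) / σ * T) := by positivity
  have hC₂T : 0 ≤ C₂ * T := by positivity
  obtain ⟨R, hR⟩ : ∃ R, R = (P : ℝ) ^ (1 / 10 : ℝ) := ⟨_, rfl⟩
  by_cases hmin : ∀ z ∈ arcCentres ⌊R⌋₊, R / N < nearDist (α - centre z)
  · refine (hsup N P α hP1 hPN hNP (hR ▸ hmin)).trans ?_
    rw [← hσ]
    refine (mul_le_mul_of_nonneg_left ((Real.rpow_le_rpow (by linarith) hPS (by linarith)).trans
      hsave) hC₁.le).trans ?_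
    nlinarith
  push Not at hmin
  obtain ⟨⟨q, r⟩, hz, hnear⟩ := hmin
  obtain ⟨⟨hq1, hqR⟩, hrq, hcop⟩ := mem_arcCentres.1 hz
  simp only at hq1 hqR hrq hcop
  have hR1 : 1 ≤ R := hR ▸ Real.one_le_rpow hP0 (by norm_num)
  have hRS : R ≤ S ^ (1 / 10 : ℝ) := hR ▸ Real.rpow_le_rpow (by linarith) hPS (by norm_num)
  obtain ⟨j, hj⟩ : ∃ j, j = round (α - centre ⟨q, r⟩) := ⟨_, rfl⟩
  obtain ⟨β, hβ⟩ : ∃ β, β = α - centre ⟨q, r⟩ - j := ⟨_, rfl⟩
  have hnd : nearDist (α - centre ⟨q, r⟩) = |β| := by rw [nearDist, ← hj, ← hβ]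
  have hndβ : nearDist β = |β| := by
    rw [← hnd, hβ, sub_eq_add_neg _ (j : ℝ), ← Int.cast_neg, nearDist_add_intCast]
  rw [hnd] at hnear
  have hα : WaringAsymptotic.waringSum k P α =
      WaringAsymptotic.waringSum k P (((r : ℤ) : ℝ) / (q : ℝ) + β) := by
    refine Eq.trans ?_ (waringSum_add_intCast k P _ j)
    congr 1
    rw [hβ, centre]
    push_cast
    ring
  have happ := WaringAsymptotic.norm_waringSum_sub_le (show 1 ≤ k by omega) hN
    (show 0 < q by omega) (r : ℤ) β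
  rw [← hP, ← hα] at happ
  have herr : 8 * (q : ℝ) * (1 + 2 * π * |β| * N) ≤ 72 * (k / σ * T) := by
    have hqR' : (q : ℝ) ≤ R := (Nat.cast_le.2 hqR).trans (Nat.floor_le (by linarith))
    have h1 : 1 + 2 * π * |β| * N ≤ 9 * R := by
      rw [le_div_iff₀ hN0] at hnear
      have := mul_le_mul_of_nonneg_left hnear (show (0 : ℝ) ≤ 2 * π by positivity)
      have := mul_le_mul_of_nonneg_right Real.pi_le_four (show (0 : ℝ) ≤ R by linarith)
      linarith
    calc 8 * (q : ℝ) * (1 + 2 * π * |β| * N) ≤ 8 * R * (9 * R) :=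
          mul_le_mul (mul_le_mul_of_nonneg_left hqR' (by norm_num)) h1 (by positivity)
            (by positivity)
      _ = 72 * (R * R) := by ring
      _ ≤ 72 * (S ^ (1 / 10 : ℝ) * S ^ (1 / 10 : ℝ)) := mul_le_mul_of_nonneg_left
          (mul_le_mul hRS hRS (by linarith) (by positivity)) (by norm_num)
      _ ≤ 72 * (k / σ * T) := by
          refine mul_le_mul_of_nonneg_left (le_trans ?_ hsave) (by norm_num)
          rw [← Real.rpow_add hS0]
          exact Real.rpow_le_rpow_of_exponent_le hS1 (by linarith)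
  obtain ⟨c, hc⟩ : ∃ c : ℝ, c = 1 / (k : ℝ) := ⟨_, rfl⟩
  have hc0 : 0 < c := by rw [hc]; positivity
  have hc1 : c ≤ 1 := by rw [hc, div_le_one hk0]; linarith
  have hScale : (N : ℝ) ^ c = S := by rw [hc, hS, powerScale]
  have hmain : ‖WaringAsymptotic.densityFactor k q r *
      WaringAsymptotic.weightSum c N β‖ ≤ (3 + C₂) * T := by
    rw [norm_mul, add_mul]
    rcases le_or_gt q ⌊l ^ (2 * k)⌋₊ with hqQ | hqQ
    · refine le_trans ?_ (le_add_of_nonneg_right (by positivity))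
      have hz' := hout ⟨q, r⟩ (mem_arcCentres.2 ⟨⟨hq1, hqQ⟩, hrq, hcop⟩)
      rw [hnd] at hz'
      have hd0 : 0 < l ^ (8 * k + 2) / (N : ℝ) := by positivity
      refine (mul_le_of_le_one_left (norm_nonneg _)
        (WaringAsymptotic.norm_densityFactor_le_one _ _ _)).trans
        ((WaringAsymptotic.norm_weightSum_le_inv hc0 hc1 N
          (hndβ ▸ hd0.trans hz')).trans ?_)
      refine mul_le_mul_of_nonneg_left ((hndβ.symm ▸ Real.rpow_le_rpow_of_nonpos hd0 hz'.le
        (by linarith)).trans ?_) (by norm_num)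
      rw [hT, Real.rpow_neg hd0.le, Real.div_rpow (by positivity) hN0.le, inv_div, hScale]
      refine div_le_div_of_nonneg_left hS0.le hl0 ?_
      rw [← Real.rpow_natCast, ← Real.rpow_mul hl0.le]
      refine le_trans (le_of_eq (Real.rpow_one l).symm) (Real.rpow_le_rpow_of_exponent_le hl1 ?_)
      rw [hc, mul_one_div, le_div_iff₀ hk0]
      push_cast
      linarith
    · refine le_trans ?_ (le_add_of_nonneg_left (by positivity))
      have hql : l ^ (2 * k) ≤ (q : ℝ) := ((Nat.floor_lt (by positivity)).1 hqQ).le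
      refine (mul_le_mul (hdf q r (mem_filter.2 ⟨mem_range.2 hrq, hcop⟩))
        (WaringAsymptotic.norm_weightSum_le hc0 hc1 N β) (norm_nonneg _) (by positivity)).trans ?_
      rw [hScale, hT, mul_assoc]
      refine mul_le_mul_of_nonneg_left ?_ (by linarith)
      rw [mul_comm, div_eq_mul_inv]
      refine mul_le_mul_of_nonneg_left ?_ hS0.le
      refine (Real.rpow_le_rpow_of_nonpos (by positivity) hql
        (neg_nonpos.2 (by positivity))).trans (le_of_eq ?_)
      rw [← Real.rpow_natCast, ← Real.rpow_mul hl0.le,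
        show ((2 * k : ℕ) : ℝ) * -(1 * (2 * (k : ℝ))⁻¹) = -1 by push_cast; field_simp,
        Real.rpow_neg_one]
  rw [← hc] at happ
  have := norm_le_norm_add_norm_sub (WaringAsymptotic.waringSum k P α)
    (WaringAsymptotic.densityFactor k q r * WaringAsymptotic.weightSum c N β)
  have := norm_sub_rev (WaringAsymptotic.waringSum k P α)
    (WaringAsymptotic.densityFactor k q r * WaringAsymptotic.weightSum c N β)
  have := norm_add_le (WaringAsymptotic.waringSum k P α -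
    WaringAsymptotic.densityFactor k q r * WaringAsymptotic.weightSum c N β)
    (WaringAsymptotic.densityFactor k q r * WaringAsymptotic.weightSum c N β)
  rw [sub_add_cancel] at this
  nlinarith

end FA.PrimePlusPower
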