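import Fermat.Agent.PrimePlusPower.Singular
import Fermat.Agent.PrimePlusPower.Weyl
import Fermat.Agent.FourCubes.Major
import Fermat.Agent.HuaCubes.Moment

/-!
# The mean square of the deviation

By Bessel it is at most the mean square of `f g` minus its models on a grid, `f` the sum over primes
up to `N` and `g` the sum of `k`-th powers up to `N`: off the major arcs `g` is
`O (N ^ (1/k) / log N)`, and on them both sums are near their models.
-/

set_option autoImplicit false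

noncomputable section

namespace FA.PrimePlusPower

open Finset FA.ThreePrimes ArithmeticFunction
open FA.HuaCubes (intTrig intTrig_mul)
open scoped Real

/-- The variables `(m, x)`, `m ≤ N`, `x ^ k ≤ N`. -/
def powerVars (k N : ℕ) : Finset (ℕ × ℕ) :=
  Ioc 0 N ×ˢ Ioc 0 (WaringAsymptotic.rootFloor k N)

/-- The representations of `n` as `m + x ^ k` with the weight `f m`. -/
def powerReps (f : ℕ → ℝ) (k N n : ℕ) : ℝ :=
  ∑ z ∈ (powerVars k N).filter (fun z => z.1 + z.2 ^ k = n), f z.1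

/-- `J (n)`. -/
def powerWeight (k N n : ℕ) : ℝ :=
  ∑ z ∈ (Ioc 0 N ×ˢ Ioc 0 N).filter (fun z => z.1 + z.2 = n),
    WaringAsymptotic.weight (1 / (k : ℝ)) z.2

/-- The model on one arc. -/
def arcModel (k N : ℕ) (z : Σ _ : ℕ, ℕ) (t : ℝ) : ℂ :=
  powerCoeff k z *
    (geomSum N (t - centre z) * WaringAsymptotic.weightSum (1 / (k : ℝ)) N (t - centre z))

/-- What is left of `f g`. -/
def powerRemainder (k N Q : ℕ) (t : ℝ) : ℂ :=
  twist t Λ N * WaringAsymptotic.waringSum k (WaringAsymptotic.rootFloor k N) t -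
    ∑ z ∈ arcCentres Q, arcModel k N z t

theorem twist_mul_waringSum (k N : ℕ) (t : ℝ) :
    twist t Λ N * WaringAsymptotic.waringSum k (WaringAsymptotic.rootFloor k N) t =
      intTrig (powerVars k N) (fun z => (Λ z.1 : ℂ) * 1)
        (fun z => ((z.1 + z.2 ^ k : ℕ) : ℤ)) t := by
  have e1 : twist t Λ N = intTrig (Ioc 0 N) (fun m => (Λ m : ℂ)) (fun m => (m : ℤ)) t := by
    simp [twist, intTrig]
  have e2 : WaringAsymptotic.waringSum k (WaringAsymptotic.rootFloor k N) t =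
      intTrig (Ioc 0 (WaringAsymptotic.rootFloor k N)) (fun _ => 1)
        (fun x => ((x ^ k : ℕ) : ℤ)) t := by
    rw [WaringAsymptotic.waringSum, show Icc 1 (WaringAsymptotic.rootFloor k N) =
      Ioc 0 (WaringAsymptotic.rootFloor k N) by ext; simp; omega]
    simp [intTrig, mul_comm t]
  rw [e1, e2, intTrig_mul]
  simp only [Nat.cast_add]
  rfl

theorem model_shift (c : ℝ) (N : ℕ) (t θ : ℝ) :
    geomSum N (t - θ) * WaringAsymptotic.weightSum c N (t - θ) = intTrig (Ioc 0 N ×ˢ Ioc 0 N)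
      (fun z => (WaringAsymptotic.weight c z.2 : ℂ) * eAdd (-(((z.1 + z.2 : ℕ) : ℝ) * θ)))
      (fun z => ((z.1 + z.2 : ℕ) : ℤ)) t := by
  have e1 : geomSum N (t - θ) = intTrig (Ioc 0 N) (fun _ => 1) (fun m => (m : ℤ)) (t - θ) := by
    simp [geomSum, intTrig]
  have e2 : WaringAsymptotic.weightSum c N (t - θ) = intTrig (Ioc 0 N)
      (fun m => (WaringAsymptotic.weight c m : ℂ)) (fun m => (m : ℤ)) (t - θ) := by
    simp [WaringAsymptotic.weightSum, intTrig]
  rw [e1, e2, intTrig_mul, intTrig, intTrig]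
  refine sum_congr rfl fun m _ => ?_
  simp only [mul_assoc, one_mul, ← eAdd_add]
  push_cast
  ring_nf

/-- **The deviations and the remainder.** -/
theorem sum_power_deviation_le {k N Q M : ℕ} (hk : 1 ≤ k) (hN : 1 ≤ N) (hM : M = 4 * N) :
    (M : ℝ) * ∑ n ∈ Ioc 0 N,
        ‖(powerReps Λ k N n : ℂ) - (powerWeight k N n : ℂ) * ∑ q ∈ Icc 1 Q, powerTerm k n q‖ ^ 2 ≤
      ∑ h ∈ range M, ‖powerRemainder k N Q ((h : ℝ) / M)‖ ^ 2 := by
  have hM0 : 0 < M := by omega
  refine le_of_mul_le_mul_left ?_ (show (0 : ℝ) < M by rw [hM]; positivity)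
  refine le_trans (le_of_eq ?_) (FourCubes.sum_norm_coeff_sq_le
    (fun h => powerRemainder k N Q ((h : ℝ) / M)) (A := 0) (B := N) (by omega))
  rw [← mul_assoc, mul_sum]
  refine sum_congr rfl fun n hn => ?_
  rw [mem_Ioc] at hn
  have e : ∑ h ∈ range M, powerRemainder k N Q ((h : ℝ) / M) * eAdd (-((n : ℝ) * h / M)) =
      (M : ℂ) *
        ((powerReps Λ k N n : ℂ) - (powerWeight k N n : ℂ) * ∑ q ∈ Icc 1 Q, powerTerm k n q) := by
    simp only [powerRemainder, arcModel, sub_mul, sum_sub_distrib, mul_sub, sum_mul]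
    congr 1
    · simp only [twist_mul_waringSum]
      rw [FourCubes.sum_intTrig_coeff _ _ _ hM0 n fun i hi => ?_]
      · simp only [powerReps, Complex.ofReal_sum, Nat.cast_inj, mul_one]
      · simp only [powerVars, mem_product, mem_Ioc] at hi
        have h1 := Nat.pow_le_pow_left hi.2.2 k
        have h2 := (WaringAsymptotic.rootFloor_spec hk hN).2.1
        rw [abs_lt]
        omega
    · rw [sum_comm, powerTerm_eq_arcs, mul_sum, mul_sum, ← arcCentres]
      refine sum_congr rfl fun z _ => ?_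
      simp only [model_shift, mul_assoc, ← mul_sum]
      rw [FourCubes.sum_intTrig_coeff _ _ _ hM0 n fun i hi => ?_]
      · rw [powerWeight, Complex.ofReal_sum,
          show (Ioc 0 N ×ˢ Ioc 0 N).filter (fun m => ((m.1 + m.2 : ℕ) : ℤ) = n) =
            (Ioc 0 N ×ˢ Ioc 0 N).filter (fun m => m.1 + m.2 = n) from
            filter_congr fun m _ => Int.natCast_inj]
        rw [sum_congr rfl fun m hm => by rw [(mem_filter.1 hm).2], sum_mul, mul_sum, mul_sum,
          mul_sum]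
        refine sum_congr rfl fun m _ => ?_
        ring
      · simp only [mem_product, mem_Ioc] at hi
        rw [abs_lt]
        omega
  rw [e, norm_mul, Complex.norm_natCast, mul_pow]
  ring

/-- **Off the arcs.** -/
theorem exists_minor_part {k : ℕ} (hk : 2 ≤ k) : ∃ C : ℝ, 0 < C ∧ ∀ N M : ℕ, 1 ≤ N →
    1 ≤ Real.log N → N < M → ∀ A : Finset ℕ, A ⊆ range M →
      (∀ h ∈ A, ∀ z ∈ arcCentres ⌊Real.log N ^ (2 * k)⌋₊,
        Real.log N ^ (8 * k + 2) / N < nearDist ((h : ℝ) / M - centre z)) →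
      ∑ h ∈ A, ‖twist ((h : ℝ) / M) Λ N *
          WaringAsymptotic.waringSum k (WaringAsymptotic.rootFloor k N) ((h : ℝ) / M)‖ ^ 2 ≤
        C * ((M : ℝ) * (N * powerScale k N ^ 2 / Real.log N)) := by
  obtain ⟨C, hC, hoff⟩ := exists_power_off hk
  refine ⟨6 * C ^ 2, by positivity, fun N M hN hl hNM A hA hout => ?_⟩
  obtain ⟨l, hl'⟩ : ∃ l, l = Real.log N := ⟨_, rfl⟩
  rw [← hl'] at hl hout ⊢
  have hl0 : 0 < l := by linarith
  refine (sum_le_sum (g := fun h : ℕ => (C * (powerScale k N / l)) ^ 2 *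
    ‖trigSum (fun m => (Λ m : ℂ)) N ((h : ℝ) / M)‖ ^ 2) fun h hh => ?_).trans ?_
  · rw [norm_mul, mul_pow, mul_comm, twist_eq_trigSum]
    refine mul_le_mul_of_nonneg_right (pow_le_pow_left₀ (norm_nonneg _) ?_ 2) (sq_nonneg _)
    have := hoff N hN (hl' ▸ hl) ((h : ℝ) / M) (hl' ▸ hout h hh)
    rwa [← hl'] at this
  rw [← mul_sum]
  refine (mul_le_mul_of_nonneg_left (sum_le_sum_of_subset_of_nonneg hA
    fun i _ _ => sq_nonneg _) (sq_nonneg _)).trans ?_
  rw [sum_norm_sq_grid _ hNM]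
  have hsq : ∑ m ∈ Icc 1 N, ‖(Λ m : ℂ)‖ ^ 2 ≤ l * (6 * N) := by
    rw [show Icc 1 N = Ioc 0 N by ext; simp; omega]
    refine le_trans (sum_le_sum (g := fun m => l * Λ m) fun m hm => ?_) ?_
    · rw [Complex.norm_real, Real.norm_eq_abs, sq_abs, sq]
      refine mul_le_mul_of_nonneg_right (vonMangoldt_le_log.trans ?_) vonMangoldt_nonneg
      rw [mem_Ioc] at hm
      exact hl' ▸ Real.log_le_log (Nat.cast_pos.2 hm.1) (Nat.cast_le.2 hm.2)
    · rw [← mul_sum]
      exact mul_le_mul_of_nonneg_left (sum_vonMangoldt_le N) hl0.le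
  refine (mul_le_mul_of_nonneg_left (mul_le_mul_of_nonneg_left hsq (Nat.cast_nonneg M))
    (sq_nonneg _)).trans (le_of_eq ?_)
  field_simp

/-- **One point of an arc.** -/
theorem exists_major_point {k : ℕ} (hk : 2 ≤ k) : ∃ C : ℝ, 0 < C ∧ ∀ N : ℕ, 2 ≤ N →
    1 ≤ Real.log N → ∀ z ∈ arcCentres ⌊Real.log N ^ (2 * k)⌋₊, ∀ t : ℝ,
      nearDist (t - centre z) ≤ Real.log N ^ (8 * k + 2) / N →
        ‖twist t Λ N * WaringAsymptotic.waringSum k (WaringAsymptotic.rootFloor k N) t -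
            arcModel k N z t‖ ≤ C * (powerScale k N * N / Real.log N ^ (10 * k + 3)) := by
  obtain ⟨C, hC, hmaj⟩ := exists_major_approx (8 * k + 2) (10 * k + 3)
  obtain ⟨K, hK, hpow⟩ := exists_log_pow_le_scale hk (20 * k + 5)
  refine ⟨C + 72 * K, by positivity, fun N hN hl z hz t ht => ?_⟩
  obtain ⟨hS1, -, -, hPS, -⟩ := powerScale_spec hk (show 1 ≤ N by omega)
  obtain ⟨S, hS⟩ : ∃ S, S = powerScale k N := ⟨_, rfl⟩
  have hlpow := hpow N (show 1 ≤ N by omega)
  obtain ⟨P, hP⟩ : ∃ P, P = WaringAsymptotic.rootFloor k N := ⟨_, rfl⟩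
  rw [← hP] at hPS ⊢
  rw [← hS] at hS1 hPS hlpow ⊢
  obtain ⟨l, hl'⟩ : ∃ l, l = Real.log N := ⟨_, rfl⟩
  rw [← hl'] at hl hz ht hlpow ⊢
  have hl0 : 0 < l := by linarith
  have hN0 : (0 : ℝ) < N := Nat.cast_pos.2 (by omega)
  obtain ⟨q, r⟩ := z
  obtain ⟨⟨hq, hqQ⟩, -, hcop⟩ := mem_arcCentres.1 hz
  simp only at hq hqQ hcop
  have : NeZero q := ⟨by omega⟩
  have hqR : (q : ℝ) ≤ l ^ (2 * k) :=
    (Nat.cast_le.2 hqQ).trans (Nat.floor_le (by positivity))
  rw [nearDist] at ht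
  obtain ⟨j, hj⟩ : ∃ j, j = round (t - centre ⟨q, r⟩) := ⟨_, rfl⟩
  obtain ⟨β, hβ⟩ : ∃ β, β = t - centre ⟨q, r⟩ - j := ⟨_, rfl⟩
  rw [← hj, ← hβ] at ht
  have hβN : |β| * N ≤ l ^ (8 * k + 2) := by rwa [← le_div_iff₀ hN0]
  have hα1 : twist t Λ N = twist (((r : ℤ) : ℝ) / (q : ℝ) + β) Λ N := by
    refine sum_congr rfl fun x _ => congrArg _ ?_
    rw [← eAdd_add_intCast _ (-(j * (x : ℤ))), hβ, centre]
    push_cast
    ring_nf
  have hα2 : WaringAsymptotic.waringSum k P t =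
      WaringAsymptotic.waringSum k P (((r : ℤ) : ℝ) / (q : ℝ) + β) := by
    refine Eq.trans ?_ (waringSum_add_intCast k P _ j)
    congr 1
    rw [hβ, centre]
    push_cast
    ring
  have hunit : IsUnit ((r : ℤ) : ZMod q) := by
    rw [Int.cast_natCast]
    exact (ZMod.isUnit_iff_coprime r q).2 hcop.symm
  have hf := hmaj N q (r : ℤ) β hN hunit
    (hl' ▸ hqR.trans (pow_le_pow_right₀ hl (by omega))) (hl' ▸ hβN)
  have hg := WaringAsymptotic.norm_waringSum_sub_le (show 1 ≤ k by omega) (show 1 ≤ N by omega)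
    (show 0 < q by omega) (r : ℤ) β
  rw [← hP, ← hα2] at hg
  rw [← hα1, ← hl'] at hf
  obtain ⟨a, ha⟩ : ∃ a, a = ((moebiusR q / q.totient : ℝ) : ℂ) * geomSum N β := ⟨_, rfl⟩
  obtain ⟨b, hb⟩ : ∃ b, b = WaringAsymptotic.densityFactor k q r *
      WaringAsymptotic.weightSum (1 / (k : ℝ)) N β := ⟨_, rfl⟩
  have e1 : geomSum N (t - centre ⟨q, r⟩) = geomSum N β := by rw [hβ, geomSum_sub_intCast]
  have e2 : WaringAsymptotic.weightSum (1 / (k : ℝ)) N (t - centre ⟨q, r⟩) =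
      WaringAsymptotic.weightSum (1 / (k : ℝ)) N β := by
    rw [hβ, WaringAsymptotic.weightSum_sub_intCast]
  rw [arcModel, e1, e2, show powerCoeff k ⟨q, r⟩ *
      (geomSum N β * WaringAsymptotic.weightSum (1 / (k : ℝ)) N β) = a * b by
    rw [ha, hb, powerCoeff]; ring]
  rw [← ha] at hf
  rw [← hb] at hg
  obtain ⟨f, hf'⟩ : ∃ f, f = twist t Λ N := ⟨_, rfl⟩
  obtain ⟨g, hg'⟩ : ∃ g, g = WaringAsymptotic.waringSum k P t := ⟨_, rfl⟩
  rw [← hf'] at hf ⊢
  rw [← hg'] at hg ⊢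
  have na : ‖a‖ ≤ N := by
    rw [ha, norm_mul]
    refine (mul_le_of_le_one_left (norm_nonneg _)
      (PrimePlusSquare.norm_moebius_ratio_le q)).trans ?_
    refine (norm_geom_le β 0 N).trans ((clip_le _ _).trans ?_)
    simp
  have ng : ‖g‖ ≤ S := hg' ▸ (WaringAsymptotic.norm_waringSum_le _ _ _).trans hPS
  have h1 : 1 + 2 * π * |β| * N ≤ 9 * l ^ (8 * k + 2) := by
    have := mul_le_mul_of_nonneg_left hβN (show (0 : ℝ) ≤ 2 * π by positivity)
    have := mul_le_mul_of_nonneg_right Real.pi_le_four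
      (show (0 : ℝ) ≤ l ^ (8 * k + 2) by positivity)
    have : 1 ≤ l ^ (8 * k + 2) := one_le_pow₀ hl
    linarith
  have h2 : ‖g - b‖ ≤ 72 * (K * S / l ^ (10 * k + 3)) := by
    refine hg.trans ((mul_le_mul (mul_le_mul_of_nonneg_left hqR (by norm_num)) h1
      (by positivity) (by positivity)).trans ?_)
    rw [show 8 * l ^ (2 * k) * (9 * l ^ (8 * k + 2)) = 72 * l ^ (10 * k + 2) by ring]
    refine mul_le_mul_of_nonneg_left ?_ (by norm_num)
    rw [le_div_iff₀ (by positivity), ← pow_add,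
      show 10 * k + 2 + (10 * k + 3) = 20 * k + 5 by ring]
    exact hlpow
  rw [show f * g - a * b = (f - a) * g + a * (g - b) by ring]
  refine (norm_add_le _ _).trans ?_
  rw [norm_mul, norm_mul]
  refine (add_le_add (mul_le_mul hf ng (norm_nonneg _) (by positivity))
    (mul_le_mul na h2 (norm_nonneg _) hN0.le)).trans (le_of_eq ?_)
  ring

/-- **The model off its arc.** -/
theorem sum_norm_arcModel_off_le {k N M : ℕ} [NeZero M] (hk : 1 ≤ k) (hN : 1 ≤ N) {δ l : ℝ}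
    (hδ : 1 / (N : ℝ) ≤ δ) (hl : 1 ≤ l) (hNM : N ≤ M) (hlog : 1 + Real.log M ≤ 4 * l)
    (z : Σ _ : ℕ, ℕ) :
    ∑ h ∈ (range M).filter (fun h => h ∉ arc M δ z), ‖arcModel k N z ((h : ℝ) / M)‖ ^ 2 ≤
      150 * δ ^ (-(1 + 2 * (1 / (k : ℝ)))) * ((M : ℝ) * l) := by
  have hk0 : (0 : ℝ) < k := Nat.cast_pos.2 hk
  obtain ⟨c, hc⟩ : ∃ c : ℝ, c = 1 / (k : ℝ) := ⟨_, rfl⟩
  have hc0 : 0 < c := by rw [hc]; positivity
  have hc1 : c ≤ 1 := by
    rw [hc, div_le_one hk0]
    exact_mod_cast hk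
  rw [← hc]
  have hN0 : (0 : ℝ) < N := Nat.cast_pos.2 hN
  have hδ0 : 0 < δ := lt_of_lt_of_le (by positivity) hδ
  obtain ⟨Z, hZ⟩ : ∃ Z, Z = 1 / (2 * δ) := ⟨_, rfl⟩
  have hZ0 : 0 < Z := by rw [hZ]; positivity
  refine (sum_le_sum (g := fun h : ℕ =>
    3 * δ ^ (-(1 + 2 * c)) * (2 * clip Z ((h : ℝ) / M - centre z))) fun h hh => ?_).trans ?_
  · rw [mem_filter, arc, mem_filter, not_and, not_le] at hh
    have hd := hh.2 hh.1
    obtain ⟨d, hd'⟩ : ∃ d, d = nearDist ((h : ℝ) / M - centre z) := ⟨_, rfl⟩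
    rw [← hd'] at hd
    have hd0 : 0 < d := hδ0.trans hd
    have h1 := WaringAsymptotic.norm_weightSum_le_inv hc0 hc1 N (hd' ▸ hd0)
    rw [← hd'] at h1
    have h2 : ‖geomSum N ((h : ℝ) / M - centre z)‖ ≤ 1 / (2 * d) :=
      (norm_geom_le _ 0 N).trans (clip_le_inv hd0 hd'.le)
    have hclip : 2 * clip Z ((h : ℝ) / M - centre z) = d⁻¹ := by
      rw [clip, ← hd', if_neg hd0.ne', min_eq_right
        (hZ ▸ one_div_le_one_div_of_le (by positivity) (by linarith))]
      field_simp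
    rw [arcModel, ← hc, norm_mul, norm_mul, mul_pow, hclip]
    refine (mul_le_of_le_one_left (sq_nonneg _)
      (pow_le_one₀ (norm_nonneg _) (norm_powerCoeff_le_one k z))).trans ?_
    rw [mul_pow]
    refine (mul_le_mul (pow_le_pow_left₀ (norm_nonneg _) h2 2)
      (pow_le_pow_left₀ (norm_nonneg _) h1 2) (sq_nonneg _) (sq_nonneg _)).trans ?_
    have e : (1 / (2 * d)) ^ 2 * (3 * d ^ (-c)) ^ 2 =
        9 / 4 * (d⁻¹ * d ^ (-(1 + 2 * c))) := by
      rw [show d ^ (-(1 + 2 * c)) = d⁻¹ * (d ^ (-c)) ^ 2 by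
        rw [← Real.rpow_natCast (d ^ (-c)) 2, ← Real.rpow_mul hd0.le, ← Real.rpow_neg_one,
          ← Real.rpow_add hd0]
        congr 1
        push_cast
        ring]
      field_simp
      ring
    rw [e, mul_comm d⁻¹, ← mul_assoc]
    refine mul_le_mul_of_nonneg_right (mul_le_mul (by norm_num)
      (Real.rpow_le_rpow_of_nonpos hδ0 hd.le (by linarith)) (by positivity) (by norm_num))
      (by positivity)
  rw [← mul_sum, ← mul_sum]
  refine (mul_le_mul_of_nonneg_left (mul_le_mul_of_nonneg_left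
    ((sum_le_sum_of_subset_of_nonneg (filter_subset _ _) fun i _ _ => clip_nonneg hZ0.le _).trans
      (sum_clip_grid_le (centre z) hZ0.le)) two_pos.le) (by positivity)).trans ?_
  have hZM : 5 * Z + 2 * M * (1 + Real.log M) ≤ 25 * M * l := by
    have h1 : Z ≤ (M : ℝ) := by
      rw [hZ, div_le_iff₀ (by positivity)]
      rw [div_le_iff₀ hN0] at hδ
      have := mul_le_mul_of_nonneg_right (Nat.cast_le.2 hNM : (N : ℝ) ≤ M) hδ0.le
      linarith
    have h2 := mul_le_mul_of_nonneg_left hlog (show 0 ≤ 2 * (M : ℝ) by positivity)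
    have h3 := mul_le_mul_of_nonneg_left hl (Nat.cast_nonneg (α := ℝ) M)
    linarith
  calc 3 * δ ^ (-(1 + 2 * c)) * (2 * (5 * Z + 2 * M * (1 + Real.log M)))
      ≤ 3 * δ ^ (-(1 + 2 * c)) * (2 * (25 * M * l)) := by gcongr
    _ = _ := by ring

/-- **The mean square of the deviation.** -/
theorem exists_deviation_le {k : ℕ} (hk : 2 ≤ k) : ∃ (N₀ : ℕ) (C : ℝ), 0 < C ∧ ∀ N : ℕ, N₀ ≤ N →
    1 ≤ Real.log N ∧ ∑ n ∈ Ioc 0 N, ‖(powerReps Λ k N n : ℂ) -
        (powerWeight k N n : ℂ) * ∑ q ∈ Icc 1 ⌊Real.log N ^ (2 * k)⌋₊, powerTerm k n q‖ ^ 2 ≤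
      C * ((N : ℝ) * powerScale k N ^ 2 / Real.log N) := by
  classical
  obtain ⟨C₁, hC₁, hminor⟩ := exists_minor_part hk
  obtain ⟨C₂, hC₂, hmajor⟩ := exists_major_point hk
  obtain ⟨K, hK, hpow⟩ := exists_log_pow_le_scale hk (12 * k + 2)
  refine ⟨max ⌈Real.exp 2⌉₊ ⌈(2 * K + 1) ^ k⌉₊,
    2 * (C₁ + 69 * C₂ ^ 2) + 2 * 150, by positivity, fun N hN => ?_⟩
  simp only [max_le_iff] at hN
  have hN' : Real.exp 2 ≤ N := (Nat.le_ceil _).trans (Nat.cast_le.2 hN.1)
  have hN0 : (0 : ℝ) < N := lt_of_lt_of_le (Real.exp_pos _) hN'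
  have hN2 : 2 ≤ N := by
    have : (2 : ℝ) ≤ N := le_trans (by linarith [Real.add_one_le_exp (2 : ℝ)]) hN'
    exact_mod_cast this
  obtain ⟨hS1, hS2, hSk, -, -⟩ := powerScale_spec hk (show 1 ≤ N by omega)
  have hlpow := hpow N (show 1 ≤ N by omega)
  obtain ⟨S, hS⟩ : ∃ S, S = powerScale k N := ⟨_, rfl⟩
  rw [← hS] at hS1 hS2 hSk hlpow ⊢
  have hS0 : 0 < S := by linarith
  obtain ⟨l, hl⟩ : ∃ l, l = Real.log N := ⟨_, rfl⟩
  rw [← hl] at hlpow ⊢
  have hl2 : 2 ≤ l := hl ▸ (Real.le_log_iff_exp_le hN0).2 hN'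
  refine ⟨by linarith, ?_⟩
  have hl0 : 0 < l := by linarith
  have hl1 : 1 ≤ l := by linarith
  have hSK : 2 * K + 1 ≤ S := by
    refine le_of_pow_le_pow_left₀ (by omega : k ≠ 0) hS0.le ?_
    rw [hSk]
    exact (Nat.le_ceil _).trans (Nat.cast_le.2 hN.2)
  obtain ⟨Q, hQ⟩ : ∃ Q, Q = ⌊l ^ (2 * k)⌋₊ := ⟨_, rfl⟩
  have hlQ : 1 ≤ l ^ (2 * k) := one_le_pow₀ hl1
  have hQl : (Q : ℝ) ≤ l ^ (2 * k) := hQ ▸ Nat.floor_le (by linarith)
  rw [← hQ]
  obtain ⟨M, hM⟩ : ∃ M, M = 4 * N := ⟨_, rfl⟩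
  have : NeZero M := ⟨by omega⟩
  have hMr : (M : ℝ) = 4 * N := by rw [hM]; push_cast; ring
  have hM0 : (0 : ℝ) < M := by rw [hMr]; positivity
  obtain ⟨δ, hδ⟩ : ∃ δ, δ = l ^ (8 * k + 2) / (N : ℝ) := ⟨_, rfl⟩
  have hδ0 : 0 < δ := by rw [hδ]; positivity
  have hlogM : 1 + Real.log M ≤ 4 * l := by
    rw [hMr, Real.log_mul (by norm_num) hN0.ne', ← hl, show (4 : ℝ) = 2 ^ 2 by norm_num,
      Real.log_pow]
    push_cast
    linarith [Real.log_two_lt_d9]
  refine le_of_mul_le_mul_left ((sum_power_deviation_le (show 1 ≤ k by omega)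
    (show 1 ≤ N by omega) hM).trans ?_) hM0
  obtain ⟨F, hF⟩ : ∃ F : ℕ → ℂ, F = fun h : ℕ => twist ((h : ℝ) / M) Λ N *
      WaringAsymptotic.waringSum k (WaringAsymptotic.rootFloor k N) ((h : ℝ) / M) -
      ∑ z ∈ (arcCentres Q).filter (fun z => h ∈ arc M δ z), arcModel k N z ((h : ℝ) / M) :=
    ⟨_, rfl⟩
  obtain ⟨D, hD⟩ : ∃ D, D = (M : ℝ) * ((N : ℝ) * S ^ 2 / l) := ⟨_, rfl⟩
  have hrem : ∀ h : ℕ, powerRemainder k N Q ((h : ℝ) / M) =
      F h - ∑ z ∈ (arcCentres Q).filter (fun z => h ∉ arc M δ z),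
        arcModel k N z ((h : ℝ) / M) := fun h => by
    rw [powerRemainder, ← sum_filter_add_sum_filter_not (arcCentres Q) (fun z => h ∈ arc M δ z),
      hF, sub_sub]
  have huniq : ∀ h z u, z ∈ arcCentres Q → u ∈ arcCentres Q → h ∈ arc M δ z → h ∈ arc M δ u →
      z = u := by
    intro x z u hz hu hx hx'
    by_contra hne
    rw [arc, mem_filter] at hx hx'
    have h1 := inv_mul_le_nearDist_centre hz hu hne
    have h2 := nearDist_sub_sub_le (centre z) (centre u) ((x : ℝ) / M)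
    have hQ0 : (0 : ℝ) < Q := by
      rw [hQ, Nat.cast_pos, Nat.floor_pos]
      exact hlQ
    have h3 : 2 * δ < 1 / ((Q : ℝ) * Q) := by
      rw [hδ, mul_div_assoc', div_lt_div_iff₀ hN0 (by positivity), one_mul]
      calc 2 * l ^ (8 * k + 2) * ((Q : ℝ) * Q)
          ≤ 2 * (l ^ (8 * k + 2) * (l ^ (2 * k) * l ^ (2 * k))) := by
            rw [mul_assoc]
            gcongr
        _ ≤ 2 * (K * S) := by
            rw [← pow_add, ← pow_add]
            refine mul_le_mul_of_nonneg_left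
              ((pow_le_pow_right₀ hl1 (by omega)).trans hlpow) zero_le_two
        _ < S ^ 2 := by nlinarith
        _ ≤ N := hS2
    linarith
  have hA : ∑ h ∈ range M, ‖F h‖ ^ 2 ≤ (C₁ + 69 * C₂ ^ 2) * D := by
    rw [← sum_filter_add_sum_filter_not (range M) (fun h => ∀ z ∈ arcCentres Q, h ∉ arc M δ z),
      add_mul]
    refine add_le_add ?_ ?_
    · refine le_trans (le_of_eq (sum_congr rfl fun h hh => ?_)) ((hminor N M (by omega)
        (hl ▸ hl1) (by omega) _ (filter_subset _ _) fun h hh z hz => ?_).trans (le_of_eq ?_))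
      · rw [mem_filter] at hh
        rw [hF]
        simp only
        rw [filter_eq_empty_iff.2 fun z hz => hh.2 z hz, sum_empty, sub_zero]
      · rw [mem_filter] at hh
        rw [← hl, ← hQ] at hz
        have h1 := hh.2 z hz
        simp only [arc, mem_filter, not_and, not_le] at h1
        rw [← hl, ← hδ]
        exact h1 hh.1
      · rw [hD, ← hl, ← hS]
    · obtain ⟨X, hX⟩ : ∃ X, X = C₂ * (S * N / l ^ (10 * k + 3)) := ⟨_, rfl⟩
      refine (sum_le_card_nsmul _ _ (X ^ 2) fun h hh => ?_).trans ?_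
      · rw [mem_filter] at hh
        push Not at hh
        obtain ⟨z, hz, hhz⟩ := hh.2
        rw [hF]
        simp only
        rw [show (arcCentres Q).filter (fun z => h ∈ arc M δ z) = {z} from
          eq_singleton_iff_unique_mem.2 ⟨mem_filter.2 ⟨hz, hhz⟩, fun u hu =>
            huniq h u z (mem_filter.1 hu).1 hz (mem_filter.1 hu).2 hhz⟩, sum_singleton]
        refine pow_le_pow_left₀ (norm_nonneg _) ?_ 2
        rw [arc, mem_filter] at hhz
        have := hmajor N hN2 (hl ▸ hl1) z (by rw [← hl, ← hQ]; exact hz) ((h : ℝ) / M)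
          (by rw [← hl, ← hδ]; exact hhz.2)
        rwa [← hl, ← hS, ← hX] at this
      rw [nsmul_eq_mul]
      have hcard : (((range M).filter fun h => ¬∀ z ∈ arcCentres Q, h ∉ arc M δ z).card : ℝ) ≤
          69 * (l ^ (4 * k) * (l ^ (8 * k + 2) * l)) := by
        refine (Nat.cast_le.2 ((card_le_card fun h hh => ?_).trans card_biUnion_le :
          ((range M).filter fun h => ¬∀ z ∈ arcCentres Q, h ∉ arc M δ z).card ≤
            ∑ z ∈ arcCentres Q, (arc M δ z).card)).trans ?_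
        · rw [mem_filter] at hh
          push Not at hh
          exact mem_biUnion.2 hh.2
        push_cast
        refine (sum_le_card_nsmul _ _ (69 * (l ^ (8 * k + 2) * l)) fun z _ => ?_).trans ?_
        · refine (card_arc_le hδ0 z).trans ?_
          have hMd : 4 * (M : ℝ) * δ = 16 * l ^ (8 * k + 2) := by
            rw [hMr, hδ]; field_simp; ring
          rw [hMd]
          have := mul_le_mul_of_nonneg_left hlogM (show 0 ≤ 16 * l ^ (8 * k + 2) by positivity)
          have : 1 ≤ l ^ (8 * k + 2) * l :=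
            one_le_mul_of_one_le_of_one_le (one_le_pow₀ hl1) hl1
          linarith
        · rw [nsmul_eq_mul]
          exact (mul_le_mul_of_nonneg_right ((FourCubes.card_arcCentres_le Q).trans
            (pow_le_pow_left₀ (Nat.cast_nonneg _) hQl 2)) (by positivity)).trans
              (le_of_eq (by ring))
      refine (mul_le_mul_of_nonneg_right hcard (sq_nonneg X)).trans ?_
      calc 69 * (l ^ (4 * k) * (l ^ (8 * k + 2) * l)) * X ^ 2
          = 69 * C₂ ^ 2 * ((N : ℝ) * ((N : ℝ) * S ^ 2) *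
              (l ^ (12 * k + 3) / l ^ (20 * k + 6))) := by
            rw [hX]
            field_simp
            ring
        _ ≤ 69 * C₂ ^ 2 * ((M : ℝ) * ((N : ℝ) * S ^ 2) * (1 / l)) := by
            refine mul_le_mul_of_nonneg_left (mul_le_mul (mul_le_mul_of_nonneg_right ?_
              (by positivity)) ?_ (by positivity) (by positivity)) (by positivity)
            · rw [hMr]; linarith
            · rw [div_le_div_iff₀ (by positivity) hl0, one_mul, ← pow_succ]
              exact pow_le_pow_right₀ hl1 (by omega)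
        _ = _ := by rw [hD]; ring
  have hB : ∑ h ∈ range M,
      ‖∑ z ∈ (arcCentres Q).filter (fun z => h ∉ arc M δ z), arcModel k N z ((h : ℝ) / M)‖ ^ 2 ≤
      150 * D := by
    have h1 : ∀ h : ℕ, ‖∑ z ∈ (arcCentres Q).filter (fun z => h ∉ arc M δ z),
        arcModel k N z ((h : ℝ) / M)‖ ^ 2 ≤ l ^ (4 * k) * ∑ z ∈ arcCentres Q,
          if h ∉ arc M δ z then ‖arcModel k N z ((h : ℝ) / M)‖ ^ 2 else 0 := by
      intro h
      refine (pow_le_pow_left₀ (norm_nonneg _) (norm_sum_le _ _) 2).trans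
        (sq_sum_le_card_mul_sum_sq.trans ?_)
      rw [← sum_filter]
      refine mul_le_mul ((Nat.cast_le.2 (card_le_card (filter_subset _ _))).trans
        ((FourCubes.card_arcCentres_le Q).trans ?_)) le_rfl
        (sum_nonneg fun _ _ => sq_nonneg _) (by positivity)
      rw [show 4 * k = 2 * k * 2 by ring, pow_mul l (2 * k) 2]
      exact pow_le_pow_left₀ (Nat.cast_nonneg _) hQl 2
    refine (sum_le_sum fun h _ => h1 h).trans ?_
    rw [← mul_sum, sum_comm]
    have hoff : ∀ z ∈ arcCentres Q, (∑ h ∈ range M,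
        if h ∉ arc M δ z then ‖arcModel k N z ((h : ℝ) / M)‖ ^ 2 else 0) ≤
          150 * δ ^ (-(1 + 2 * (1 / (k : ℝ)))) * ((M : ℝ) * l) := by
      intro z _
      rw [← sum_filter]
      refine sum_norm_arcModel_off_le (show 1 ≤ k by omega) (by omega) ?_ hl1 (by omega) hlogM z
      rw [hδ]
      exact div_le_div_of_nonneg_right (one_le_pow₀ hl1) hN0.le
    have hδbd : δ ^ (-(1 + 2 * (1 / (k : ℝ)))) ≤ (N : ℝ) * S ^ 2 / l ^ (8 * k + 2) := by
      have hk0 : (0 : ℝ) < k := Nat.cast_pos.2 (by omega)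
      rw [Real.rpow_neg hδ0.le, hδ, Real.div_rpow (by positivity) hN0.le, inv_div]
      refine div_le_div₀ (by positivity) (le_of_eq ?_) (by positivity) ?_
      · rw [Real.rpow_add hN0, Real.rpow_one, hS, powerScale, ← Real.rpow_natCast (_ ^ _) 2,
          ← Real.rpow_mul hN0.le, mul_comm (1 / (k : ℝ))]
        norm_num
      · exact Real.self_le_rpow_of_one_le (one_le_pow₀ hl1)
          (le_add_of_nonneg_right (by positivity))
    refine (mul_le_mul_of_nonneg_left ((sum_le_card_nsmul _ _ _ hoff).trans (le_of_eq_of_le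
      (nsmul_eq_mul _ _) (mul_le_mul ((FourCubes.card_arcCentres_le Q).trans
        (pow_le_pow_left₀ (Nat.cast_nonneg _) hQl 2))
        (mul_le_mul_of_nonneg_right (mul_le_mul_of_nonneg_left hδbd (by norm_num))
          (by positivity)) (by positivity) (by positivity)))) (by positivity)).trans (le_of_eq ?_)
    rw [hD]
    field_simp
    ring
  simp only [hrem]
  refine (sum_le_sum fun h _ => (pow_le_pow_left₀ (norm_nonneg _) (norm_sub_le _ _) 2).trans
    add_sq_le).trans ?_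
  rw [← mul_sum, sum_add_distrib]
  refine (mul_le_mul_of_nonneg_left (add_le_add hA hB) zero_le_two).trans (le_of_eq ?_)
  rw [hD]
  ring

end FA.PrimePlusPower
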