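import Fermat.Agent.PrimePlusPower.Circle
import Fermat.Agent.ThreePrimes.Main

/-!
# Almost all numbers are a prime plus a `k`-th power

An exception in `(ε N / 2, N]` has a small partial singular series, many representations by prime
powers, or a large deviation. The `k`-th powers `m ^ k` with `m ^ k - (m - 1) ^ k` composite are
exceptions.
-/

set_option autoImplicit false

noncomputable section

namespace FA.PrimePlusPower

open Finset FA.ThreePrimes ArithmeticFunction Filter Topology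
open scoped Real

/-- `n = p + x ^ k` with `x ≥ 1`. -/
def IsPrimePlusPower (k n : ℕ) : Prop := ∃ p x : ℕ, p.Prime ∧ 0 < x ∧ p + x ^ k = n

theorem powerWeight_lower {k N n : ℕ} (hk : 2 ≤ k) (hn : n ≤ N) (h4 : 4 ^ k ≤ n) :
    (n : ℝ) ^ (1 / (k : ℝ)) / 4 ≤ powerWeight k N n := by
  have hk0 : (0 : ℝ) < k := Nat.cast_pos.2 (by omega)
  obtain ⟨c, hc⟩ : ∃ c : ℝ, c = 1 / (k : ℝ) := ⟨_, rfl⟩
  have hc0 : 0 < c := by rw [hc]; positivity
  have hc1 : c ≤ 1 := by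
    rw [hc, div_le_one hk0]
    exact_mod_cast (show 1 ≤ k by omega)
  have hn4 : 4 ≤ n := le_trans (Nat.le_self_pow (by omega) 4) h4
  obtain ⟨m, rfl⟩ : ∃ m, n = m + 1 := ⟨n - 1, by omega⟩
  have e : ∑ i ∈ Ioc 0 m, WaringAsymptotic.weight c i ≤ powerWeight k N (m + 1) := by
    rw [powerWeight, ← hc, ← sum_image (f := fun z : ℕ × ℕ => WaringAsymptotic.weight c z.2)
      (g := fun i : ℕ => (m + 1 - i, i)) fun x _ y _ e => (Prod.mk.inj e).2]
    refine sum_le_sum_of_subset_of_nonneg (fun z hz => ?_) fun z _ _ =>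
      WaringAsymptotic.weight_nonneg hc0.le _
    obtain ⟨i, hi, rfl⟩ := mem_image.1 hz
    simp only [mem_filter, mem_product, mem_Ioc] at hi ⊢
    omega
  refine le_trans ?_ e
  refine le_trans ?_ (WaringAsymptotic.abs_sum_weight_sub_le hc0 hc1 m).1
  rw [← hc]
  obtain ⟨t, ht⟩ : ∃ t, t = ((m + 1 : ℕ) : ℝ) ^ c := ⟨_, rfl⟩
  rw [← ht]
  have ht4 : 4 ≤ t := by
    have h1 : ((4 : ℝ) ^ k) ^ c ≤ t := by
      rw [ht]
      exact Real.rpow_le_rpow (by positivity) (by exact_mod_cast h4) hc0.le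
    rwa [← Real.rpow_natCast, ← Real.rpow_mul (by norm_num), hc, mul_one_div_cancel hk0.ne',
      Real.rpow_one] at h1
  have hm : t / 2 ≤ (m : ℝ) ^ c := by
    rw [div_le_iff₀ two_pos, ht]
    calc ((m + 1 : ℕ) : ℝ) ^ c ≤ (2 * (m : ℝ)) ^ c := by
          refine Real.rpow_le_rpow (Nat.cast_nonneg _) ?_ hc0.le
          have : (1 : ℝ) ≤ m := by exact_mod_cast (show 1 ≤ m by omega)
          push_cast
          linarith
      _ = 2 ^ c * (m : ℝ) ^ c := Real.mul_rpow two_pos.le (Nat.cast_nonneg m)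
      _ ≤ 2 * (m : ℝ) ^ c := mul_le_mul_of_nonneg_right
          (Real.rpow_le_self_of_one_le one_le_two hc1) (by positivity)
      _ = (m : ℝ) ^ c * 2 := mul_comm _ _
  linarith

/-- **The prime powers are negligible on average.** -/
theorem sum_powerReps_powerPart_le {k N : ℕ} (hk : 2 ≤ k) (hN : 1 ≤ N) :
    ∑ n ∈ Ioc 0 N, powerReps powerPart k N n ≤
      powerScale k N * (2 * √(N : ℝ) * Real.log N) := by
  refine (sum_fiberwise_le_sum_of_sum_fiber_nonneg fun y _ => sum_nonneg fun z _ =>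
    powerPart_nonneg z.1).trans ?_
  rw [powerVars, sum_product]
  simp only [sum_const, Nat.card_Ioc, Nat.sub_zero, nsmul_eq_mul, ← mul_sum]
  obtain ⟨hS1, -, -, hPS, -⟩ := powerScale_spec hk hN
  refine mul_le_mul hPS ?_ (sum_nonneg fun x _ => powerPart_nonneg x) (by linarith)
  rw [show Ioc 0 N = Icc 1 N by ext; simp; omega]
  exact sum_powerPart_le hN

theorem powerReps_eq_powerPart {k N n : ℕ} (h : ¬IsPrimePlusPower k n) :
    powerReps Λ k N n = powerReps powerPart k N n := by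
  refine sum_congr rfl fun z hz => ?_
  rw [powerPart, if_neg]
  intro hp
  simp only [powerVars, mem_filter, mem_product, mem_Ioc] at hz
  exact h ⟨z.1, z.2, hp, hz.1.2.1, hz.2⟩

open Classical in
/-- **The theorem of Davenport and Heilbronn: almost all numbers are a prime plus a `k`-th
power.** -/
theorem eventually_exceptions_le {k : ℕ} (hk : 2 ≤ k) {ε : ℝ} (hε : 0 < ε) :
    ∀ᶠ N : ℕ in atTop,
      (((Ioc 0 N).filter fun n => ¬IsPrimePlusPower k n).card : ℝ) ≤ ε * N := by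
  have hk0 : (0 : ℝ) < k := Nat.cast_pos.2 (by omega)
  obtain ⟨τ, hτ⟩ : ∃ τ : ℝ, τ = 1 / (4 * (k : ℝ)) := ⟨_, rfl⟩
  have hτ0 : 0 < τ := by rw [hτ]; positivity
  obtain ⟨A, hA'⟩ : ∃ A : ℝ, A = 2 * (k : ℝ) := ⟨_, rfl⟩
  obtain ⟨C₁, hC₁, hrest⟩ := exists_power_rest hk
  obtain ⟨c, hc, hlow⟩ := exists_smoothPower_ge hk
  rw [← hA'] at hlow
  obtain ⟨N₀, C₂, hC₂, hdev⟩ := exists_deviation_le hk
  obtain ⟨K₀, hK₀, hpow⟩ := exists_log_pow_le (12 * k + 1)
  obtain ⟨K₁, hK₁, hpow₁⟩ := exists_log_pow_le 2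
  obtain ⟨w, hw3, hw⟩ : ∃ w : ℕ, 3 ≤ w ∧
      4 * C₁ / c ^ 2 * (Real.log w ^ (2 * A) * (w : ℝ) ^ (-τ)) ≤ ε / 8 := by
    have h := ((isLittleO_log_rpow_rpow_atTop (2 * A) hτ0).comp_tendsto
      tendsto_natCast_atTop_atTop).bound (show 0 < ε / 8 / (4 * C₁ / c ^ 2) by positivity)
    obtain ⟨T, hT⟩ := eventually_atTop.1 h
    refine ⟨max 3 T, le_max_left _ _, ?_⟩
    obtain ⟨w, hw⟩ : ∃ w, w = max 3 T := ⟨_, rfl⟩
    rw [← hw]
    have hw0 : (0 : ℝ) < w := Nat.cast_pos.2 (by omega)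
    have h' := hT w (hw ▸ le_max_right _ _)
    simp only [Function.comp_apply, Real.norm_eq_abs] at h'
    rw [abs_of_nonneg (Real.rpow_nonneg (Real.log_natCast_nonneg w) _),
      abs_of_nonneg (Real.rpow_nonneg hw0.le _), div_mul_eq_mul_div,
      le_div_iff₀ (by positivity)] at h'
    rw [Real.rpow_neg hw0.le, ← mul_assoc, ← div_eq_mul_inv, div_le_iff₀ (by positivity)]
    linarith
  obtain ⟨cw, hcw⟩ : ∃ cw : ℝ, cw = c / Real.log w ^ A := ⟨_, rfl⟩
  have hlw : 0 < Real.log w := Real.log_pos (by exact_mod_cast (show 1 < w by omega))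
  have hcw0 : 0 < cw := by rw [hcw]; positivity
  obtain ⟨X, hX⟩ : ∃ X : ℝ, X = (ε / 2) ^ (1 / (k : ℝ)) * cw / 16 := ⟨_, rfl⟩
  have hX0 : 0 < X := by rw [hX]; positivity
  obtain ⟨b, hb⟩ : ∃ b : ℝ, b = 4 * K₀ / cw ^ 2 + 2 * K₁ / X + C₂ / X ^ 2 := ⟨_, rfl⟩
  refine eventually_atTop.2 ⟨max (max N₀ ⌈Real.exp (max (max (FourCubes.smoothModulus w : ℝ)
    (4 * b / ε)) 1)⌉₊) (max 1 ⌈2 * 4 ^ k / ε⌉₊), fun N hN => ?_⟩
  simp only [max_le_iff] at hN
  have hN1 : (1 : ℝ) ≤ N := by exact_mod_cast hN.2.1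
  have hN0 : (0 : ℝ) < N := by linarith
  obtain ⟨hl1, hd⟩ := hdev N hN.1.1
  obtain ⟨hS1, -, -, -, -⟩ := powerScale_spec hk hN.2.1
  obtain ⟨S, hS⟩ : ∃ S, S = powerScale k N := ⟨_, rfl⟩
  rw [← hS] at hd hS1
  obtain ⟨l, hl⟩ : ∃ l, l = Real.log N := ⟨_, rfl⟩
  rw [← hl] at hl1 hd
  have hl0 : 0 < l := by linarith
  have hlge : max (max (FourCubes.smoothModulus w : ℝ) (4 * b / ε)) 1 ≤ l := by
    rw [hl, Real.le_log_iff_exp_le hN0]
    exact (Nat.le_ceil _).trans (Nat.cast_le.2 hN.1.2)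
  simp only [max_le_iff] at hlge
  obtain ⟨Q, hQ⟩ : ∃ Q, Q = ⌊l ^ (2 * k)⌋₊ := ⟨_, rfl⟩
  rw [← hQ] at hd
  have hWQ : FourCubes.smoothModulus w ≤ Q :=
    hQ ▸ Nat.le_floor (hlge.1.1.trans (le_self_pow₀ hl1 (by omega)))
  have hsN : √(N : ℝ) ≤ N := by
    rw [Real.sqrt_le_left hN0.le]
    nlinarith
  have hQ6 : (Q : ℝ) ^ 6 ≤ K₀ * (N / l) := by
    rw [mul_div_assoc', le_div_iff₀ hl0]
    calc (Q : ℝ) ^ 6 * l ≤ (l ^ (2 * k)) ^ 6 * l := by
          gcongr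
          exact hQ ▸ Nat.floor_le (by positivity)
      _ = l ^ (12 * k + 1) := by ring
      _ ≤ K₀ * √(N : ℝ) := hl ▸ hpow N hN1
      _ ≤ K₀ * N := mul_le_mul_of_nonneg_left hsN hK₀.le
  obtain ⟨G, hG⟩ : ∃ G : ℕ → ℝ, G = fun n =>
      ‖∑ q ∈ Icc 1 Q, powerTerm k n q - (smoothPower k n w : ℂ)‖ := ⟨_, rfl⟩
  obtain ⟨D, hD⟩ : ∃ D : ℕ → ℝ, D = fun n => powerReps powerPart k N n := ⟨_, rfl⟩
  obtain ⟨E, hE⟩ : ∃ E : ℕ → ℝ, E = fun n => ‖(powerReps Λ k N n : ℂ) -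
      (powerWeight k N n : ℂ) * ∑ q ∈ Icc 1 Q, powerTerm k n q‖ := ⟨_, rfl⟩
  have hD0 : ∀ n, 0 ≤ D n := fun n => hD ▸ sum_nonneg fun z _ => powerPart_nonneg z.1
  obtain ⟨Y, hY⟩ : ∃ Y : ℝ, Y = X * S := ⟨_, rfl⟩
  have hY0 : 0 < Y := by rw [hY]; positivity
  have hsub : (Ioc 0 N).filter (fun n => ¬IsPrimePlusPower k n) ⊆
      Ioc 0 ⌊ε / 2 * N⌋₊ ∪ ((Ioc 0 N).filter (fun n => cw / 2 ≤ G n) ∪
        ((Ioc 0 N).filter (fun n => Y ≤ D n) ∪ (Ioc 0 N).filter (fun n => Y ≤ E n))) := by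
    intro n hn
    simp only [mem_filter, mem_Ioc] at hn
    simp only [mem_union, mem_filter, mem_Ioc]
    by_cases hsmall : n ≤ ⌊ε / 2 * N⌋₊
    · exact Or.inl ⟨hn.1.1, hsmall⟩
    by_cases hA : cw / 2 ≤ G n
    · exact Or.inr (Or.inl ⟨hn.1, hA⟩)
    by_cases hB : Y ≤ D n
    · exact Or.inr (Or.inr (Or.inl ⟨hn.1, hB⟩))
    refine Or.inr (Or.inr (Or.inr ⟨hn.1, ?_⟩))
    have hbig : ε / 2 * N < n := (Nat.floor_lt (by positivity)).1 (not_le.1 hsmall)
    have h4 : 4 ^ k ≤ n := by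
      have h1 : 2 * 4 ^ k / ε ≤ N := (Nat.le_ceil _).trans (Nat.cast_le.2 hN.2.2)
      rw [div_le_iff₀ hε] at h1
      have h2 : (4 : ℝ) ^ k < n := by linarith
      exact_mod_cast h2.le
    have hJ : (ε / 2) ^ (1 / (k : ℝ)) * S / 4 ≤ powerWeight k N n := by
      refine le_trans ?_ (powerWeight_lower hk hn.1.2 h4)
      rw [hS, powerScale, ← Real.mul_rpow (by positivity) hN0.le]
      exact div_le_div_of_nonneg_right (Real.rpow_le_rpow (by positivity) hbig.le (by positivity))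
        (by norm_num)
    obtain ⟨Z, hZ⟩ : ∃ Z, Z = ∑ q ∈ Icc 1 Q, powerTerm k n q := ⟨_, rfl⟩
    have hZn : cw / 2 ≤ ‖Z‖ := by
      have h1 : cw ≤ ‖(smoothPower k n w : ℂ)‖ := by
        rw [Complex.norm_real, Real.norm_eq_abs]
        exact (hcw ▸ hlow w hw3 n).trans (le_abs_self _)
      have h2 := norm_le_norm_add_norm_sub Z (smoothPower k n w : ℂ)
      simp only [hG] at hA
      rw [← hZ] at hA
      linarith
    rw [hE]
    simp only
    rw [← hZ, norm_sub_rev]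
    refine le_trans ?_ (norm_sub_norm_le _ _)
    have hR : ‖(powerReps Λ k N n : ℂ)‖ ≤ Y := by
      rw [Complex.norm_real, Real.norm_eq_abs, powerReps_eq_powerPart hn.2]
      simp only [hD] at hB hD0
      rw [abs_of_nonneg (hD0 n)]
      exact (not_le.1 hB).le
    have hM : 2 * Y ≤ ‖(powerWeight k N n : ℂ) * Z‖ := by
      rw [norm_mul, Complex.norm_real, Real.norm_eq_abs,
        abs_of_nonneg (le_trans (by positivity) hJ)]
      refine le_trans (le_of_eq ?_)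
        (mul_le_mul hJ hZn (by positivity) (le_trans (by positivity) hJ))
      rw [hY, hX]
      ring
    linarith
  refine (Nat.cast_le.2 ((card_le_card hsub).trans ((card_union_le _ _).trans (add_le_add le_rfl
    ((card_union_le _ _).trans (add_le_add le_rfl (card_union_le _ _))))))).trans ?_
  push_cast
  have hcount : ∀ (F : ℕ → ℝ) (x : ℝ), 0 < x → (∀ n, 0 ≤ F n) →
      (((Ioc 0 N).filter fun n => x ≤ F n).card : ℝ) ≤ (∑ n ∈ Ioc 0 N, F n) / x := by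
    intro F x hx hF
    rw [le_div_iff₀ hx]
    refine le_trans ?_ ((card_nsmul_le_sum _ _ x fun n hn => (mem_filter.1 hn).2).trans
      (sum_le_sum_of_subset_of_nonneg (filter_subset _ _) fun n _ _ => hF n))
    rw [nsmul_eq_mul]
  have hsq : ∀ (F : ℕ → ℝ) (x : ℝ), 0 < x →
      (((Ioc 0 N).filter fun n => x ≤ F n).card : ℝ) ≤ (∑ n ∈ Ioc 0 N, F n ^ 2) / x ^ 2 :=
    fun F x hx => le_trans (Nat.cast_le.2 (card_le_card fun n hn => by
      rw [mem_filter] at hn ⊢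
      exact ⟨hn.1, pow_le_pow_left₀ hx.le hn.2 2⟩))
      (hcount (fun n => F n ^ 2) _ (by positivity) fun n => sq_nonneg _)
  have hA : (((Ioc 0 N).filter fun n => cw / 2 ≤ G n).card : ℝ) ≤
      ε / 8 * N + 4 * K₀ / cw ^ 2 * (N / l) := by
    refine (hsq G (cw / 2) (by positivity)).trans ?_
    rw [div_le_iff₀ (by positivity), hG]
    refine (hrest w Q N (by omega) hWQ).trans ((add_le_add le_rfl hQ6).trans ?_)
    rw [← hτ]
    have h2 : C₁ * ((N : ℝ) * (w : ℝ) ^ (-τ)) ≤ ε / 8 * N * (cw / 2) ^ 2 := by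
      have h3 := mul_le_mul_of_nonneg_right hw (mul_nonneg hN0.le (sq_nonneg (cw / 2)))
      have e : Real.log w ^ (2 * A) = (Real.log w ^ A) ^ 2 := by
        rw [← Real.rpow_natCast (Real.log w ^ _) 2, ← Real.rpow_mul hlw.le]
        push_cast
        ring_nf
      rw [e, hcw] at h3
      rw [hcw]
      refine le_trans (le_of_eq ?_) (h3.trans (le_of_eq (by ring)))
      have : Real.log w ^ A ≠ 0 := (Real.rpow_pos_of_pos hlw _).ne'
      field_simp
      ring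
    have h4 : K₀ * ((N : ℝ) / l) = 4 * K₀ / cw ^ 2 * (N / l) * (cw / 2) ^ 2 := by
      field_simp
      ring
    linarith
  have hB : (((Ioc 0 N).filter fun n => Y ≤ D n).card : ℝ) ≤ 2 * K₁ / X * (N / l) := by
    refine (hcount D Y hY0 hD0).trans ?_
    rw [div_le_iff₀ hY0]
    refine le_trans (le_of_eq (sum_congr rfl fun n _ => congrFun hD n))
      ((sum_powerReps_powerPart_le hk hN.2.1).trans ?_)
    rw [← hl, ← hS]
    have h1 : l * l ≤ K₁ * √(N : ℝ) := by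
      rw [← sq]
      exact hl ▸ hpow₁ N hN1
    rw [hY, show 2 * K₁ / X * (N / l) * (X * S) = S * (2 * (K₁ * N)) / l by
      field_simp, le_div_iff₀ hl0]
    calc S * (2 * √(N : ℝ) * l) * l = S * (2 * (√(N : ℝ) * (l * l))) := by ring
      _ ≤ S * (2 * (√(N : ℝ) * (K₁ * √(N : ℝ)))) := by gcongr
      _ = S * (2 * (K₁ * (√(N : ℝ) * √(N : ℝ)))) := by ring
      _ = _ := by rw [Real.mul_self_sqrt hN0.le]
  have hC : (((Ioc 0 N).filter fun n => Y ≤ E n).card : ℝ) ≤ C₂ / X ^ 2 * (N / l) := by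
    refine (hsq E Y hY0).trans ?_
    rw [div_le_iff₀ (by positivity), hE]
    refine hd.trans (le_of_eq ?_)
    rw [hY, mul_pow]
    field_simp
  have h0 : ((Ioc 0 ⌊ε / 2 * N⌋₊).card : ℝ) ≤ ε / 2 * N := by
    rw [Nat.card_Ioc, Nat.sub_zero]
    exact Nat.floor_le (by positivity)
  have hbl : b * (N / l) ≤ ε / 4 * N := by
    have h1 := hlge.1.2
    rw [div_le_iff₀ hε] at h1
    rw [mul_div_assoc', div_le_iff₀ hl0]
    nlinarith
  rw [hb] at hbl
  nlinarith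

theorem lt_pow_sub_pred_pow (x : ℕ) : ∀ i : ℕ,
    2 ^ (i + 2) - 1 < (x + 3) ^ (i + 2) - (x + 2) ^ (i + 2) := by
  intro i
  induction i with
  | zero =>
    have e : (x + 3) ^ (0 + 2) = (x + 2) ^ (0 + 2) + (2 * x + 5) := by ring
    rw [e]
    norm_num
  | succ i ih =>
    have e1 : (x + 3) * ((x + 2) ^ (i + 2)) = (x + 2) * (x + 2) ^ (i + 2) + (x + 2) ^ (i + 2) := by
      ring
    have h1 : (x + 2) ^ (i + 2) ≤ (x + 3) ^ (i + 2) := Nat.pow_le_pow_left (by omega) _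
    have h2 : 2 * ((x + 3) ^ (i + 2) - (x + 2) ^ (i + 2)) ≤
        (x + 3) * ((x + 3) ^ (i + 2) - (x + 2) ^ (i + 2)) := Nat.mul_le_mul_right _ (by omega)
    have h3 : 0 < (x + 2) ^ (i + 2) := pow_pos (by omega) _
    rw [show i + 1 + 2 = i + 2 + 1 by ring, pow_succ' 2 (i + 2), pow_succ' (x + 3) (i + 2),
      pow_succ' (x + 2) (i + 2)]
    rw [Nat.mul_sub (x + 3)] at h2
    have h4 : (x + 3) * (x + 2) ^ (i + 2) ≤ (x + 3) * (x + 3) ^ (i + 2) := Nat.mul_le_mul_left _ h1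
    omega

theorem not_isPrimePlusPower_pow {k m : ℕ} (hk : 2 ≤ k)
    (hm : ¬(m ^ k - (m - 1) ^ k).Prime) : ¬IsPrimePlusPower k (m ^ k) := by
  rintro ⟨p, x, hp, hx, e⟩
  have hxm : x < m := by
    by_contra h
    have := Nat.pow_le_pow_left (not_lt.1 h) k
    have := hp.pos
    omega
  have hd : m - x ∣ p := by
    rw [show p = m ^ k - x ^ k by omega]
    exact Nat.sub_dvd_pow_sub_pow m x k
  rcases (Nat.dvd_prime hp).1 hd with h | h
  · refine hm ?_
    rw [show m - 1 = x by omega, show m ^ k - x ^ k = p by omega]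
    exact hp
  · have h1 : x ^ k + (m - x) < m ^ k := by
      obtain ⟨i, rfl⟩ : ∃ i, k = i + 1 + 1 := ⟨k - 2, by omega⟩
      have h2 : m * x ^ (i + 1) ≤ m * m ^ (i + 1) :=
        Nat.mul_le_mul_left m (Nat.pow_le_pow_left hxm.le _)
      have h3 : x ^ (i + 1 + 1) + (m - x) * x ^ (i + 1) = m * x ^ (i + 1) := by
        rw [pow_succ' x (i + 1), ← add_mul]
        congr 1
        omega
      rw [pow_succ' m (i + 1)]
      have h4 : m * x ^ (i + 1) < m * m ^ (i + 1) :=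
        Nat.mul_lt_mul_of_pos_left (Nat.pow_lt_pow_left hxm (by omega)) (by omega)
      have h5 : m - x ≤ (m - x) * x ^ (i + 1) := Nat.le_mul_of_pos_right _ (pow_pos hx _)
      omega
    omega

/-- **There are infinitely many exceptions.** -/
theorem infinite_exceptions {k : ℕ} (hk : 2 ≤ k) :
    {n : ℕ | ¬IsPrimePlusPower k n}.Infinite := by
  obtain ⟨q, hq⟩ : ∃ q, q = 2 ^ k - 1 := ⟨_, rfl⟩
  have hq3 : 3 ≤ q := by
    have := Nat.pow_le_pow_right (show 2 > 0 by norm_num) hk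
    omega
  refine Set.infinite_of_injective_forall_mem (f := fun j : ℕ => (2 + q * (j + 1)) ^ k)
    (fun i j e => ?_) fun j => not_isPrimePlusPower_pow hk fun h => ?_
  · have h1 := Nat.pow_left_injective (show k ≠ 0 by omega) e
    simp only [Nat.add_left_cancel_iff] at h1
    exact Nat.add_right_cancel (Nat.eq_of_mul_eq_mul_left (by omega) h1)
  obtain ⟨m, hm⟩ : ∃ m, m = 2 + q * (j + 1) := ⟨_, rfl⟩
  have hmq : 3 ≤ m := by
    have : q ≤ q * (j + 1) := Nat.le_mul_of_pos_right q (by omega)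
    omega
  rw [← hm] at h
  have hd : q ∣ m ^ k - (m - 1) ^ k := by
    have h1 : m ≡ 2 [MOD q] := by
      rw [hm, Nat.ModEq, Nat.add_mul_mod_self_left]
    have h2 : m - 1 ≡ 1 [MOD q] := by
      rw [show m - 1 = 1 + q * (j + 1) by omega, Nat.ModEq, Nat.add_mul_mod_self_left]
    have h3 : (m - 1) ^ k + (2 ^ k - 1) ≡ m ^ k [MOD q] := by
      refine Nat.ModEq.trans ((h2.pow k).add_right _) ?_
      rw [one_pow, Nat.add_sub_cancel' Nat.one_le_two_pow]
      exact (h1.pow k).symm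
    have h4 : (m - 1) ^ k + (2 ^ k - 1) ≡ (m - 1) ^ k + 0 [MOD q] :=
      Nat.ModEq.add_left _ (Nat.modEq_zero_iff_dvd.2 (hq ▸ dvd_rfl))
    exact (Nat.modEq_iff_dvd' (Nat.pow_le_pow_left (Nat.sub_le m 1) k)).1
      (by simpa using h4.symm.trans h3)
  have hlt : q < m ^ k - (m - 1) ^ k := by
    have := lt_pow_sub_pred_pow (m - 3) (k - 2)
    rw [show k - 2 + 2 = k by omega, show m - 3 + 3 = m by omega,
      show m - 3 + 2 = m - 1 by omega, ← hq] at this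
    exact this
  rcases (Nat.dvd_prime h).1 hd with h5 | h5 <;> omega

end FA.PrimePlusPower
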