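import Fermat.Agent.PrimePlusSquare.Singular
import Fermat.Agent.Resonance.CharMain

/-!
# The singular series of a prime and a `k`-th power

Its term at `q` is `μ q / φ q` times the term of one power. Over the divisors of `W` it sums to
`∏ (1 - (ν - 1) / (p - 1))`, `ν` the number of `x` modulo `p` with `x ^ k ≡ n`, at least
`c / (log w) ^ (2 k)`; the rest of a partial sum is small in mean square.
-/

set_option autoImplicit false

noncomputable section

namespace FA.PrimePlusPower

open Finset FA.ThreePrimes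
open FA.PrimePlusSquare (norm_moebius_ratio_le moebiusR_primePow)

/-- The coefficient of a centre. -/
def powerCoeff (k : ℕ) (z : Σ _ : ℕ, ℕ) : ℂ :=
  ((moebiusR z.1 / z.1.totient : ℝ) : ℂ) * WaringAsymptotic.densityFactor k z.1 z.2

/-- The singular series term. -/
def powerTerm (k n q : ℕ) : ℂ :=
  ((moebiusR q / q.totient : ℝ) : ℂ) * WaringAsymptotic.singularTerm k 1 n q

theorem norm_powerCoeff_le_one (k : ℕ) (z : Σ _ : ℕ, ℕ) : ‖powerCoeff k z‖ ≤ 1 := by
  rw [powerCoeff, norm_mul]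
  exact mul_le_one₀ (norm_moebius_ratio_le _) (norm_nonneg _)
    (WaringAsymptotic.norm_densityFactor_le_one _ _ _)

theorem powerTerm_eq_arcs (k n : ℕ) (A : Finset ℕ) :
    ∑ q ∈ A, powerTerm k n q =
      ∑ z ∈ A.sigma unitResidues, powerCoeff k z * eAdd (-((n : ℝ) * centre z)) := by
  rw [sum_sigma]
  refine sum_congr rfl fun q _ => ?_
  rw [powerTerm, WaringAsymptotic.singularTerm, mul_sum]
  refine sum_congr rfl fun r _ => ?_
  simp only [powerCoeff, centre, pow_one, mul_div_assoc, mul_assoc]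

theorem powerTerm_one (k n : ℕ) : powerTerm k n 1 = 1 := by
  simp [powerTerm, WaringAsymptotic.singularTerm_one, moebiusR_isMultiplicative.1]

theorem powerTerm_mul {k : ℕ} (hk : 1 ≤ k) (n : ℕ) {a b : ℕ} (h : a.Coprime b) :
    powerTerm k n (a * b) = powerTerm k n a * powerTerm k n b := by
  rw [powerTerm, powerTerm, powerTerm, moebiusR_isMultiplicative.2 h, Nat.totient_mul h,
    WaringAsymptotic.singularTerm_mul hk h]
  push_cast
  rw [mul_div_mul_comm]
  ring

theorem powerTerm_primePow_eq_zero (k n : ℕ) {p l : ℕ} (hp : p.Prime) (hl : 2 ≤ l) :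
    powerTerm k n (p ^ l) = 0 := by
  rw [powerTerm, moebiusR_primePow hp (by omega), if_neg (by omega)]
  simp

/-! ### The local densities -/

/-- `1 - (ν - 1) / (p - 1)`, `ν` the number of roots of `x ^ k = n` modulo `p`. -/
def localFactorPower (k n p : ℕ) : ℝ :=
  1 - ((WaringAsymptotic.congrCount k 1 n p : ℝ) - 1) / (p.totient : ℝ)

theorem one_add_powerTerm_prime (k n : ℕ) {p : ℕ} (hp : p.Prime) :
    1 + powerTerm k n p = (localFactorPower k n p : ℂ) := by
  have h := WaringAsymptotic.residueSum_primePow (k := k) (s := 1) (N := n) hp 1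
  rw [WaringAsymptotic.residueSum_eq (pow_pos hp.pos 1), sum_range_succ, sum_range_one, pow_zero,
    WaringAsymptotic.singularTerm_one] at h
  simp only [pow_one] at h
  rw [mul_div_cancel_left₀ _ (Nat.cast_ne_zero.2 hp.ne_zero)] at h
  rw [powerTerm, localFactorPower, eq_sub_of_add_eq' h.symm,
    show moebiusR p = -1 by simpa using moebiusR_primePow hp one_ne_zero]
  push_cast
  ring

theorem congrCount_power_le {k p : ℕ} (hk : 0 < k) (hp : p.Prime) (n : ℕ) :
    WaringAsymptotic.congrCount k 1 n p ≤ k ∧ WaringAsymptotic.congrCount k 1 n p + 1 ≤ p := by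
  have : Fact p.Prime := ⟨hp⟩
  have key : WaringAsymptotic.congrCount k 1 n p ≤
      ((univ : Finset (ZMod p)).filter fun x => x ^ k = (n : ZMod p)).card := by
    refine card_le_card_of_injOn (fun z => (z 0 : ZMod p)) (fun z hz => ?_) fun z hz y hy e => ?_
    · simp only [mem_coe, mem_filter, Fintype.mem_piFinset, mem_range] at hz
      simp only [mem_coe, mem_filter, mem_univ, true_and]
      have h := (ZMod.intCast_zmod_eq_zero_iff_dvd _ _).2 hz.2
      simp only [Fin.sum_univ_one, Int.cast_sub, Int.cast_natCast, Nat.cast_pow, Int.cast_pow,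
        sub_eq_zero] at h
      exact h
    · simp only [mem_coe, mem_filter, Fintype.mem_piFinset, mem_range] at hz hy
      funext i
      rw [Subsingleton.elim i 0]
      have h := congrArg ZMod.val e
      simp only [ZMod.val_natCast_of_lt (hz.1 0), ZMod.val_natCast_of_lt (hy.1 0)] at h
      exact h
  refine ⟨key.trans (WaringAsymptotic.card_pow_eq_le hk _), ?_⟩
  refine (Nat.add_le_add_right key 1).trans (Nat.succ_le_of_lt ?_)
  refine lt_of_lt_of_eq (card_lt_univ_of_notMem
    (x := if (n : ZMod p) = 0 then (1 : ZMod p) else 0) ?_) (ZMod.card p)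
  intro h
  rw [mem_filter] at h
  by_cases hn : (n : ZMod p) = 0
  · rw [if_pos hn, one_pow, hn] at h
    exact one_ne_zero h.2
  · rw [if_neg hn, zero_pow hk.ne'] at h
    exact hn h.2.symm

theorem localFactorPower_ge {k p : ℕ} (hk : 0 < k) (hp : p.Prime) (n : ℕ) :
    1 / (p : ℝ) ≤ localFactorPower k n p ∧ 1 - (k : ℝ) / p ≤ localFactorPower k n p := by
  obtain ⟨h1, h2⟩ := congrCount_power_le hk hp n
  obtain ⟨ν, hν⟩ : ∃ ν : ℝ, ν = (WaringAsymptotic.congrCount k 1 n p : ℝ) := ⟨_, rfl⟩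
  have hνk : ν ≤ k := hν ▸ Nat.cast_le.2 h1
  have hνp : ν + 1 ≤ p := by rw [hν]; exact_mod_cast h2
  have hp2 : (2 : ℝ) ≤ p := by exact_mod_cast hp.two_le
  rw [localFactorPower, ← hν, Nat.totient_prime hp, Nat.cast_sub hp.one_le, Nat.cast_one,
    one_sub_div (by linarith)]
  constructor
  · rw [div_le_div_iff₀ (by linarith) (by linarith)]
    nlinarith
  · rw [sub_le_iff_le_add, div_add_div _ _ (by linarith) (by linarith),
      le_div_iff₀ (mul_pos (by linarith) (by linarith))]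
    nlinarith [mul_nonneg (show 0 ≤ (k : ℝ) - ν by linarith) (show (0 : ℝ) ≤ p by linarith)]

/-- The singular series over the divisors of `W`. -/
def smoothPower (k n w : ℕ) : ℝ := ∏ p ∈ ErdosKac.primesUpTo w, localFactorPower k n p

theorem sum_divisors_smoothPower {k : ℕ} (hk : 1 ≤ k) (n : ℕ) {w : ℕ} (hw : 1 ≤ w) :
    ∑ q ∈ (FourCubes.smoothModulus w).divisors, powerTerm k n q = (smoothPower k n w : ℂ) := by
  classical
  obtain ⟨f, hf⟩ : ∃ f : ArithmeticFunction ℂ, f = ⟨powerTerm k n, by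
      simp [powerTerm, WaringAsymptotic.singularTerm, unitResidues]⟩ := ⟨_, rfl⟩
  have hfa : ∀ q, f q = powerTerm k n q := fun q => by rw [hf]; rfl
  have hmul : ArithmeticFunction.IsMultiplicative f :=
    ⟨by rw [hfa, powerTerm_one], fun {a b} h => by rw [hfa, hfa, hfa, powerTerm_mul hk n h]⟩
  obtain ⟨g, hg⟩ : ∃ g : ArithmeticFunction ℂ, g = f * ↑ArithmeticFunction.zeta := ⟨_, rfl⟩
  have hga : ∀ m, g m = ∑ q ∈ m.divisors, powerTerm k n q := fun m => by
    rw [hg, ArithmeticFunction.coe_mul_zeta_apply]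
    exact sum_congr rfl fun q _ => hfa q
  have hgm : ArithmeticFunction.IsMultiplicative g :=
    hg ▸ hmul.mul ArithmeticFunction.isMultiplicative_zeta.natCast
  rw [← hga, FourCubes.smoothModulus, ArithmeticFunction.IsMultiplicative.map_prod _ hgm _
    fun p hp r hr hne => ((Nat.coprime_primes (ErdosKac.mem_primesUpTo.1 hp).1
      (ErdosKac.mem_primesUpTo.1 hr).1).2 hne).pow w w, smoothPower, Complex.ofReal_prod]
  refine prod_congr rfl fun p hp => ?_
  have hp' := (ErdosKac.mem_primesUpTo.1 hp).1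
  rw [hga, Nat.sum_divisors_prime_pow hp', ← one_add_powerTerm_prime k n hp',
    ← sum_subset (range_subset_range.2 (show 2 ≤ w + 1 by omega)) fun l _ hl =>
      powerTerm_primePow_eq_zero k n hp' (by rw [mem_range] at hl; omega)]
  simp [sum_range_succ, powerTerm_one]

/-- **The lower bound.** -/
theorem exists_smoothPower_ge {k : ℕ} (hk : 2 ≤ k) : ∃ c : ℝ, 0 < c ∧ ∀ w : ℕ, 3 ≤ w → ∀ n : ℕ,
    c / Real.log w ^ (2 * (k : ℝ)) ≤ smoothPower k n w := by
  obtain ⟨C, hC⟩ := ErdosKac.exists_abs_recipSum_sub_le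
  obtain ⟨b, hb⟩ : ∃ b : ℕ, b = 2 * k := ⟨_, rfl⟩
  have hb0 : (0 : ℝ) < b := Nat.cast_pos.2 (by omega)
  have hk0 : (0 : ℝ) < k := Nat.cast_pos.2 (by omega)
  refine ⟨(1 / (b : ℝ)) ^ b * Real.exp (-(2 * k * C)), mul_pos (by positivity) (Real.exp_pos _),
    fun w hw n => ?_⟩
  have hlw : 0 < Real.log w := Real.log_pos (by exact_mod_cast (show 1 < w by omega))
  rw [smoothPower, ← prod_filter_mul_prod_filter_not (ErdosKac.primesUpTo w) (fun p => p < b)]
  have hsmall : (1 / (b : ℝ)) ^ b ≤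
      ∏ p ∈ (ErdosKac.primesUpTo w).filter (fun p => p < b), localFactorPower k n p := by
    have hcard : ((ErdosKac.primesUpTo w).filter fun p => p < b).card ≤ b :=
      (card_le_card (t := range b) fun p hp => mem_range.2 (mem_filter.1 hp).2).trans
        (card_range b).le
    refine (pow_le_pow_of_le_one (by positivity) ?_ hcard).trans ?_
    · rw [div_le_one hb0]
      exact_mod_cast (show 1 ≤ b by omega)
    rw [← prod_const]
    refine prod_le_prod (fun _ _ => by positivity) fun p hp => ?_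
    rw [mem_filter, ErdosKac.mem_primesUpTo] at hp
    refine le_trans ?_ (localFactorPower_ge (show 0 < k by omega) hp.1.1 n).1
    exact one_div_le_one_div_of_le (Nat.cast_pos.2 hp.1.1.pos) (Nat.cast_le.2 hp.2.le)
  have hlarge : Real.exp (-(2 * k * C)) / Real.log w ^ (2 * (k : ℝ)) ≤
      ∏ p ∈ (ErdosKac.primesUpTo w).filter (fun p => ¬p < b), localFactorPower k n p := by
    have h1 : ∀ p ∈ (ErdosKac.primesUpTo w).filter (fun p => ¬p < b),
        Real.exp (-(2 * k * (p : ℝ)⁻¹)) ≤ localFactorPower k n p := by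
      intro p hp
      rw [mem_filter, ErdosKac.mem_primesUpTo, not_lt, hb] at hp
      refine le_trans ?_ (localFactorPower_ge (show 0 < k by omega) hp.1.1 n).2
      obtain ⟨x, hx⟩ : ∃ x : ℝ, x = (k : ℝ) / p := ⟨_, rfl⟩
      have hx0 : 0 ≤ x := by rw [hx]; positivity
      have hx2 : x ≤ 1 / 2 := by
        rw [hx, div_le_iff₀ (Nat.cast_pos.2 hp.1.1.pos)]
        have : (2 * (k : ℝ)) ≤ p := by exact_mod_cast hp.2
        linarith
      rw [show 2 * (k : ℝ) * (p : ℝ)⁻¹ = 2 * x by rw [hx]; ring, ← hx, Real.exp_neg,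
        inv_le_iff_one_le_mul₀' (Real.exp_pos _)]
      nlinarith [Real.add_one_le_exp (2 * x), mul_nonneg hx0 (show 0 ≤ 1 - 2 * x by linarith)]
    refine le_trans ?_ (prod_le_prod (fun _ _ => (Real.exp_pos _).le) h1)
    rw [← Real.exp_sum, Real.rpow_def_of_pos hlw, div_eq_mul_inv, ← Real.exp_neg, ← Real.exp_add,
      sum_neg_distrib, ← mul_sum]
    refine Real.exp_le_exp.2 ?_
    have hsum : ∑ p ∈ (ErdosKac.primesUpTo w).filter (fun p => ¬p < b), (p : ℝ)⁻¹ ≤
        ErdosKac.recipSum w :=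
      sum_le_sum_of_subset_of_nonneg (filter_subset _ _) fun p _ _ => by positivity
    have := mul_le_mul_of_nonneg_left (hsum.trans
      (show ErdosKac.recipSum w ≤ Real.log (Real.log w) + C by
        linarith [(abs_le.1 (hC w (by omega))).2])) (show 0 ≤ 2 * (k : ℝ) by positivity)
    linarith
  rw [mul_div_assoc]
  exact mul_le_mul hsmall hlarge (by positivity) ((by positivity : (0 : ℝ) ≤ _).trans hsmall)

/-! ### The rest of the partial sum -/

/-- `1 / φ q = O (q ^ (ε - 1))`. -/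
theorem exists_inv_totient_le_rpow {ε : ℝ} (hε : 0 < ε) : ∃ C : ℝ, 0 < C ∧ ∀ q : ℕ, 0 < q →
    1 / (q.totient : ℝ) ≤ C * (q : ℝ) ^ (ε - 1) := by
  refine ⟨1 + 2 / ε, by positivity, fun q hq => ?_⟩
  have hq0 : (0 : ℝ) < q := Nat.cast_pos.2 hq
  have hq1 : (1 : ℝ) ≤ q := by exact_mod_cast hq
  have hφ : (0 : ℝ) < q.totient := Nat.cast_pos.2 (Nat.totient_pos.2 hq)
  have h1 : (q.primeFactors.card : ℝ) * Real.log 2 ≤ Real.log q := by
    rw [← Real.log_pow]
    refine Real.log_le_log (by positivity) ?_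
    exact_mod_cast (pow_card_le_prod q.primeFactors (fun p => p) 2 fun p hp =>
      (Nat.prime_of_mem_primeFactors hp).two_le).trans
      (Nat.le_of_dvd hq (Nat.prod_primeFactors_dvd q))
  have h2 : (q.primeFactors.card : ℝ) + 1 ≤ (1 + 2 / ε) * (q : ℝ) ^ ε := by
    have h3 := Real.log_le_rpow_div hq0.le hε
    have h4 : 1 ≤ (q : ℝ) ^ ε := Real.one_le_rpow hq1 hε.le
    have h5 : (q.primeFactors.card : ℝ) ≤ 2 * Real.log q := by
      nlinarith [Real.log_two_gt_d9, Nat.cast_nonneg (α := ℝ) q.primeFactors.card]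
    rw [show (1 + 2 / ε) * (q : ℝ) ^ ε = (q : ℝ) ^ ε + 2 * ((q : ℝ) ^ ε / ε) by ring]
    linarith
  have h6 := (Resonance.le_totient_mul_card_succ q).trans (mul_le_mul_of_nonneg_left h2 hφ.le)
  rw [Real.rpow_sub hq0, Real.rpow_one, div_le_iff₀ hφ,
    mul_div_assoc', div_mul_eq_mul_div, le_div_iff₀ hq0]
  linarith

/-- **The rest of the partial sum is small in mean square.** -/
theorem exists_power_rest {k : ℕ} (hk : 2 ≤ k) : ∃ C : ℝ, 0 < C ∧ ∀ w R N : ℕ, 1 ≤ w →
    FourCubes.smoothModulus w ≤ R →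
    ∑ n ∈ Ioc 0 N, ‖∑ q ∈ Icc 1 R, powerTerm k n q - (smoothPower k n w : ℂ)‖ ^ 2 ≤
      C * ((N : ℝ) * (w : ℝ) ^ (-(1 / (4 * (k : ℝ))))) + (R : ℝ) ^ 6 := by
  have hk0 : (0 : ℝ) < k := Nat.cast_pos.2 (by omega)
  have hk2 : (2 : ℝ) ≤ k := by exact_mod_cast hk
  obtain ⟨C, hC, hdf⟩ := WaringAsymptotic.exists_densityFactor_le hk
    (e := 1 / (2 * (k : ℝ))) (by positivity)
    (by rw [mul_one_div, div_le_one (by positivity)]; linarith)
    (by rw [div_le_iff₀ (by positivity)]; linarith)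
  obtain ⟨C', hC', hφle⟩ := exists_inv_totient_le_rpow (ε := 1 / (2 * (k : ℝ))) (by positivity)
  obtain ⟨τ, hτ⟩ : ∃ τ : ℝ, τ = 1 / (4 * (k : ℝ)) := ⟨_, rfl⟩
  have hτ0 : 0 < τ := by rw [hτ]; positivity
  have hsum : Summable fun q : ℕ => (q : ℝ) ^ (-(1 + τ)) :=
    Real.summable_nat_rpow.2 (by linarith)
  refine ⟨C' * C ^ 2 * (∑' q : ℕ, (q : ℝ) ^ (-(1 + τ)) + 1), mul_pos (by positivity)
    (add_pos_of_nonneg_of_pos (tsum_nonneg fun q => by positivity) one_pos),
    fun w R N hw hWR => ?_⟩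
  rw [← hτ]
  have hsub : (FourCubes.smoothModulus w).divisors ⊆ Icc 1 R := fun q hq => mem_Icc.2
    ⟨Nat.pos_of_mem_divisors hq, (Nat.divisor_le hq).trans hWR⟩
  obtain ⟨S, hS⟩ : ∃ S, S = Icc 1 R \ (FourCubes.smoothModulus w).divisors := ⟨_, rfl⟩
  have e : ∀ n, ∑ q ∈ Icc 1 R, powerTerm k n q - (smoothPower k n w : ℂ) =
      ∑ z ∈ S.sigma unitResidues, powerCoeff k z * eAdd (-((n : ℝ) * centre z)) := fun n => by
    rw [← sum_divisors_smoothPower (show 1 ≤ k by omega) n hw, ← sum_sdiff hsub,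
      add_sub_cancel_right, hS, powerTerm_eq_arcs]
  simp only [e]
  refine (HuaThreeSquares.sum_norm_trig_sq_le (R := R) ?_ (powerCoeff k) (norm_powerCoeff_le_one k)
    0 N).trans (add_le_add ?_ le_rfl)
  · intro z hz
    rw [mem_sigma, hS, mem_sdiff] at hz
    rw [arcCentres, mem_sigma]
    exact ⟨hz.1.1, hz.2⟩
  · rw [Nat.sub_zero, mul_left_comm]
    refine mul_le_mul_of_nonneg_left ?_ (Nat.cast_nonneg _)
    rw [sum_sigma]
    calc ∑ q ∈ S, ∑ r ∈ unitResidues q, ‖powerCoeff k ⟨q, r⟩‖ ^ 2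
        ≤ ∑ q ∈ S, C' * C ^ 2 * ((w : ℝ) ^ (-τ) * (q : ℝ) ^ (-(1 + τ))) := by
          refine sum_le_sum fun q hq => ?_
          rw [hS, mem_sdiff, mem_Icc] at hq
          have hwq : w < q := by
            by_contra h
            exact hq.2 (Nat.mem_divisors.2 ⟨FourCubes.dvd_smoothModulus hq.1.1 (not_lt.1 h),
              (FourCubes.smoothModulus_pos w).ne'⟩)
          have hq0 : (0 : ℝ) < q := Nat.cast_pos.2 hq.1.1
          have hφ : (0 : ℝ) < q.totient := Nat.cast_pos.2 (Nat.totient_pos.2 hq.1.1)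
          refine (sum_le_card_nsmul _ _ ((1 / (q.totient : ℝ)) ^ 2 *
            (C * (q : ℝ) ^ (-(1 / (2 * (k : ℝ))))) ^ 2) fun r hr => ?_).trans ?_
          · rw [powerCoeff, norm_mul, mul_pow]
            refine mul_le_mul (pow_le_pow_left₀ (norm_nonneg _) ?_ 2)
              (pow_le_pow_left₀ (norm_nonneg _) (hdf q r hr) 2) (sq_nonneg _) (sq_nonneg _)
            rw [Complex.norm_real, Real.norm_eq_abs, abs_div, Nat.abs_cast]
            exact div_le_div_of_nonneg_right (abs_moebiusR_le q) hφ.le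
          rw [nsmul_eq_mul, card_unitResidues, show (q.totient : ℝ) *
              ((1 / (q.totient : ℝ)) ^ 2 * (C * (q : ℝ) ^ (-(1 / (2 * (k : ℝ))))) ^ 2) =
              1 / (q.totient : ℝ) * (C ^ 2 * ((q : ℝ) ^ (-(1 / (2 * (k : ℝ))))) ^ 2) by field_simp]
          refine (mul_le_mul_of_nonneg_right (hφle q hq.1.1) (by positivity)).trans ?_
          rw [← Real.rpow_natCast ((q : ℝ) ^ (-(1 / (2 * (k : ℝ))))) 2, ← Real.rpow_mul hq0.le]
          calc C' * (q : ℝ) ^ (1 / (2 * (k : ℝ)) - 1) *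
                (C ^ 2 * (q : ℝ) ^ (-(1 / (2 * (k : ℝ))) * ((2 : ℕ) : ℝ)))
              = C' * C ^ 2 * ((q : ℝ) ^ (1 / (2 * (k : ℝ)) - 1) *
                  (q : ℝ) ^ (-(1 / (2 * (k : ℝ))) * ((2 : ℕ) : ℝ))) := by ring
            _ = C' * C ^ 2 * ((q : ℝ) ^ (-τ) * (q : ℝ) ^ (-(1 + τ))) := by
                rw [← Real.rpow_add hq0, ← Real.rpow_add hq0]
                congr 2
                rw [hτ]
                push_cast
                field_simp
                ring
            _ ≤ _ := by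
                refine mul_le_mul_of_nonneg_left (mul_le_mul_of_nonneg_right
                  (Real.rpow_le_rpow_of_nonpos (Nat.cast_pos.2 hw) (Nat.cast_le.2 hwq.le)
                    (by linarith)) (by positivity)) (by positivity)
      _ ≤ _ := by
          rw [← mul_sum, ← mul_sum]
          refine (mul_le_mul_of_nonneg_left (mul_le_mul_of_nonneg_left
            (hsum.sum_le_tsum S fun q _ => by positivity) (by positivity)) (by positivity)).trans ?_
          have : 0 ≤ C' * C ^ 2 * (w : ℝ) ^ (-τ) := by positivity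
          linarith

end FA.PrimePlusPower
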